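import Fermat.Agent.AbelianFE.RealGauss
import Mathlib.NumberTheory.LSeries.Nonvanishing

/-!
# The functional equation of a product of `L`-functions over a group of characters

The root numbers of `χ` and `χ⁻¹` are inverse and those of real characters are `1`, so the product over a set
closed under inversion satisfies a functional equation with sign `1`.
-/

set_option autoImplicit false
set_option linter.style.haveILetI false

noncomputable section

open DirichletCharacter Complex
open scoped Classical

namespace FA.AbelianFE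

variable {n : ℕ} [NeZero n]

local instance instNeZeroConductorFE (χ : DirichletCharacter ℂ n) : NeZero χ.conductor :=
  ⟨χ.conductor_ne_zero⟩

omit [NeZero n] in
/-- The parity of the primitive character. -/
theorem primitiveCharacter_neg_one (χ : DirichletCharacter ℂ n) : χ.primitiveCharacter (-1) = χ (-1) := by
  have h := χ.primitiveCharacter_apply_of_isCoprime (a := -1) isCoprime_one_left.neg_left
  simpa using h

/-- A function of the primitive character sees only the character. -/
theorem primitive_unique {q : ℕ} [NeZero q] (hq : q ∣ n) {ψ : DirichletCharacter ℂ q} (hψ : ψ.IsPrimitive)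
    {χ : DirichletCharacter ℂ n} (h : changeLevel hq ψ = χ) {α : Type*}
    (Φ : (m : ℕ) → DirichletCharacter ℂ m → α) : Φ χ.conductor χ.primitiveCharacter = Φ q ψ := by
  have hc : χ.conductor = q := by rw [← h, conductor_changeLevel, (isPrimitive_def ψ).mp hψ]
  subst hc
  rw [changeLevel_injective χ.conductor_dvd_level (h.trans χ.changeLevel_primitiveCharacter.symm)]

/-- The primitive character of an inverse. -/
theorem primitive_inv (χ : DirichletCharacter ℂ n) {α : Type*} (Φ : (m : ℕ) → DirichletCharacter ℂ m → α) :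
    Φ χ⁻¹.conductor χ⁻¹.primitiveCharacter = Φ χ.conductor χ.primitiveCharacter⁻¹ := by
  have : NeZero χ.conductor := ⟨χ.conductor_ne_zero⟩
  refine primitive_unique χ.conductor_dvd_level ?_ (by rw [map_inv, changeLevel_primitiveCharacter]) Φ
  rw [isPrimitive_def, conductor_inv, (isPrimitive_def _).mp χ.primitiveCharacter_isPrimitive]

/-- The root number, at any level. -/
def rootNumber' (m : ℕ) (ψ : DirichletCharacter ℂ m) : ℂ :=
  if h : m = 0 then 1 else letI : NeZero m := ⟨h⟩; rootNumber ψ

theorem rootNumber'_eq {m : ℕ} [NeZero m] (ψ : DirichletCharacter ℂ m) : rootNumber' m ψ = rootNumber ψ := by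
  rw [rootNumber', dif_neg (NeZero.ne m)]

/-- The completed `L`-function, at any level. -/
def completed' (s : ℂ) (m : ℕ) (ψ : DirichletCharacter ℂ m) : ℂ :=
  if h : m = 0 then 1 else letI : NeZero m := ⟨h⟩; completedLFunction ψ s

theorem completed'_eq {m : ℕ} [NeZero m] (s : ℂ) (ψ : DirichletCharacter ℂ m) :
    completed' s m ψ = completedLFunction ψ s := by
  rw [completed', dif_neg (NeZero.ne m)]

/-- **Inverse root numbers.** -/
theorem rootNumber_mul_inv {N : ℕ} [NeZero N] {ψ : DirichletCharacter ℂ N} (h : ψ.IsPrimitive) :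
    rootNumber ψ * rootNumber ψ⁻¹ = 1 := by
  have h' : ψ⁻¹.IsPrimitive := by
    rw [isPrimitive_def, conductor_inv]
    exact (isPrimitive_def ψ).mp h
  have h1 := h.completedLFunction_one_sub (-1)
  have h2 := h'.completedLFunction_one_sub 2
  norm_num at h1 h2
  rw [h2] at h1
  have hne : completedLFunction ψ 2 ≠ 0 := fun e => by
    have hL := LFunction_eq_completed_div_gammaFactor ψ 2 (Or.inl two_ne_zero)
    rw [e, zero_div] at hL
    exact LFunction_ne_zero_of_one_le_re ψ (Or.inr (by norm_num)) (by norm_num) hL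
  have hN : (N : ℂ) ^ (-(3 / 2) : ℂ) * (N : ℂ) ^ (3 / 2 : ℂ) = 1 := by
    rw [← cpow_add _ _ (NeZero.ne (N : ℂ))]
    norm_num
  have h3 : completedLFunction ψ 2 * (rootNumber ψ * rootNumber ψ⁻¹) = completedLFunction ψ 2 * 1 := by
    rw [mul_one]
    conv_rhs => rw [h1]
    linear_combination -(rootNumber ψ * rootNumber ψ⁻¹ * completedLFunction ψ 2) * hN
  exact mul_left_cancel₀ hne h3

/-- **The root numbers multiply to `1`.** -/
theorem prod_rootNumber {X : Finset (DirichletCharacter ℂ n)} (hX : ∀ χ ∈ X, χ⁻¹ ∈ X) :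
    ∏ χ ∈ X, rootNumber χ.primitiveCharacter = 1 := by
  have key : ∀ χ : DirichletCharacter ℂ n,
      rootNumber χ⁻¹.primitiveCharacter = rootNumber χ.primitiveCharacter⁻¹ := fun χ => by
    have : NeZero χ.conductor := ⟨χ.conductor_ne_zero⟩
    have : NeZero χ⁻¹.conductor := ⟨χ⁻¹.conductor_ne_zero⟩
    rw [← rootNumber'_eq, ← rootNumber'_eq]
    exact primitive_inv χ rootNumber'
  refine Finset.prod_involution (fun χ _ => χ⁻¹) (fun χ _ => ?_) (fun χ _ hne e => hne ?_)
    (fun χ hχ => hX χ hχ) (fun χ _ => inv_inv χ)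
  · have : NeZero χ.conductor := ⟨χ.conductor_ne_zero⟩
    rw [key, rootNumber_mul_inv χ.primitiveCharacter_isPrimitive]
  · have : NeZero χ.conductor := ⟨χ.conductor_ne_zero⟩
    refine rootNumber_eq_one_of_real χ.primitiveCharacter_isPrimitive ?_
    refine changeLevel_injective χ.conductor_dvd_level ?_
    rw [map_pow, changeLevel_primitiveCharacter, map_one, pow_two]
    nth_rewrite 1 [← e]
    exact inv_mul_cancel χ

/-- The completed product. -/
def completedProd (X : Finset (DirichletCharacter ℂ n)) (s : ℂ) : ℂ :=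
  ((∏ χ ∈ X, χ.conductor : ℕ) : ℂ) ^ (s / 2) * ∏ χ ∈ X, completed' s χ.conductor χ.primitiveCharacter

/-- A power of a product of natural numbers. -/
theorem natCast_prod_cpow {ι : Type*} (X : Finset ι) (f : ι → ℕ) (s : ℂ) :
    ((∏ i ∈ X, f i : ℕ) : ℂ) ^ s = ∏ i ∈ X, ((f i : ℕ) : ℂ) ^ s := by
  induction X using Finset.induction with
  | empty => simp
  | insert a X ha ih =>
    rw [Finset.prod_insert ha, Finset.prod_insert ha, Nat.cast_mul, natCast_mul_natCast_cpow, ih]

/-- **The functional equation of the product.** -/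
theorem completedProd_one_sub {X : Finset (DirichletCharacter ℂ n)} (hX : ∀ χ ∈ X, χ⁻¹ ∈ X) (s : ℂ) :
    completedProd X (1 - s) = completedProd X s := by
  have hterm : ∀ χ ∈ X, completed' (1 - s) χ.conductor χ.primitiveCharacter =
      ((χ.conductor : ℕ) : ℂ) ^ (s - 1 / 2) * rootNumber χ.primitiveCharacter *
        completed' s χ⁻¹.conductor χ⁻¹.primitiveCharacter := fun χ _ => by
    have : NeZero χ.conductor := ⟨χ.conductor_ne_zero⟩
    rw [primitive_inv χ (completed' s), completed'_eq, completed'_eq]
    exact χ.primitiveCharacter_isPrimitive.completedLFunction_one_sub s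
  have hinv : ∏ χ ∈ X, completed' s χ⁻¹.conductor χ⁻¹.primitiveCharacter =
      ∏ χ ∈ X, completed' s χ.conductor χ.primitiveCharacter :=
    Finset.prod_nbij' (fun χ => χ⁻¹) (fun χ => χ⁻¹) hX hX (fun χ _ => inv_inv χ) (fun χ _ => inv_inv χ)
      fun _ _ => rfl
  have hne : ((∏ χ ∈ X, χ.conductor : ℕ) : ℂ) ≠ 0 :=
    Nat.cast_ne_zero.mpr (Finset.prod_ne_zero_iff.mpr fun χ _ => χ.conductor_ne_zero)
  rw [completedProd, completedProd, Finset.prod_congr rfl hterm, Finset.prod_mul_distrib, Finset.prod_mul_distrib,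
    prod_rootNumber hX, hinv, mul_one, ← natCast_prod_cpow, ← mul_assoc, ← cpow_add _ _ hne]
  ring_nf

/-- Regular outside `0` and `1`. -/
theorem differentiableAt_completedProd (X : Finset (DirichletCharacter ℂ n)) {s : ℂ} (h0 : s ≠ 0) (h1 : s ≠ 1) :
    DifferentiableAt ℂ (completedProd X) s := by
  refine DifferentiableAt.mul ?_ (DifferentiableAt.fun_finsetProd fun χ _ => ?_)
  · exact (differentiableAt_id.div_const 2).const_cpow (Or.inl (Nat.cast_ne_zero.mpr
      (Finset.prod_ne_zero_iff.mpr fun χ _ => χ.conductor_ne_zero)))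
  · have : NeZero χ.conductor := ⟨χ.conductor_ne_zero⟩
    simp only [completed'_eq]
    exact differentiableAt_completedLFunction _ _ (Or.inl h0) (Or.inl h1)

/-- The `L`-functions back, away from the nonpositive integers. -/
theorem completedProd_eq {X : Finset (DirichletCharacter ℂ n)} {s : ℂ} (hs : ∀ m : ℕ, s ≠ -(m : ℂ)) :
    completedProd X s = ((∏ χ ∈ X, χ.conductor : ℕ) : ℂ) ^ (s / 2) *
      ((∏ χ ∈ X, LFunction χ.primitiveCharacter s) *
        (Gammaℝ s ^ (X.filter fun χ => χ.Even).card * Gammaℝ (s + 1) ^ (X.filter fun χ => ¬ χ.Even).card)) := by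
  rw [completedProd]
  congr 1
  have hg : ∀ χ : DirichletCharacter ℂ n, gammaFactor χ.primitiveCharacter s =
      if χ.Even then Gammaℝ s else Gammaℝ (s + 1) := fun χ => by
    rw [gammaFactor]
    refine if_congr ?_ rfl rfl
    show χ.primitiveCharacter (-1) = 1 ↔ χ (-1) = 1
    rw [primitiveCharacter_neg_one]
  have hne : ∀ χ : DirichletCharacter ℂ n, gammaFactor χ.primitiveCharacter s ≠ 0 := fun χ => by
    rw [hg]
    split_ifs <;> rw [Ne, Gammaℝ_eq_zero_iff] <;> rintro ⟨j, hj⟩
    · exact hs (2 * j) (by rw [hj]; push_cast; ring)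
    · exact hs (2 * j + 1) (by rw [eq_sub_of_add_eq hj]; push_cast; ring)
  have hterm : ∀ χ ∈ X, completed' s χ.conductor χ.primitiveCharacter =
      LFunction χ.primitiveCharacter s * if χ.Even then Gammaℝ s else Gammaℝ (s + 1) := fun χ _ => by
    have : NeZero χ.conductor := ⟨χ.conductor_ne_zero⟩
    rw [completed'_eq, ← hg, LFunction_eq_completed_div_gammaFactor _ _ (Or.inl (by simpa using hs 0)),
      div_mul_cancel₀ _ (hne χ)]
  rw [Finset.prod_congr rfl hterm, Finset.prod_mul_distrib, Finset.prod_ite, Finset.prod_const, Finset.prod_const]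

end FA.AbelianFE
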