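import Fermat.Agent.AbelianFE.CompletedProduct
import Mathlib.NumberTheory.LSeries.HurwitzZetaValues
import Mathlib.NumberTheory.NumberField.Cyclotomic.Galois

/-!
# Siegel–Klingen for products of Dirichlet `L`-functions

At `-m`, `m ≥ 1`, `L(s, ψ)` is `-(q^m/(m+1)) ∑ ψ(j) B_(m+1)(j/q)`; the product over a set of characters closed
under powers prime to their order is fixed by Galois, so rational.
-/

set_option autoImplicit false
set_option linter.style.haveILetI false

noncomputable section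

open DirichletCharacter Complex HurwitzZeta
open scoped Classical

namespace FA.AbelianFE

/-- `-(q^m/(m+1)) B_(m+1)(j/q)`. -/
def bernoulliWeight (m q j : ℕ) : ℚ :=
  -((q : ℚ) ^ m / (m + 1)) * (Polynomial.bernoulli (m + 1)).eval ((j : ℚ) / q)

/-- `L(-m, ψ)` in finite terms. -/
theorem LFunction_neg_nat_eq {q : ℕ} [NeZero q] (ψ : DirichletCharacter ℂ q) {m : ℕ} (hm : m ≠ 0) :
    LFunction ψ (-(m : ℂ)) = ∑ j : ZMod q, ψ j * (bernoulliWeight m q j.val : ℂ) := by
  rw [DirichletCharacter.LFunction, ZMod.LFunction, Finset.mul_sum]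
  refine Finset.sum_congr rfl fun j _ => ?_
  have hq : (0 : ℝ) < q := by exact_mod_cast NeZero.pos q
  rw [show ZMod.toAddCircle j = (((j.val : ℝ) / q : ℝ) : UnitAddCircle) from ZMod.toAddCircle_apply _,
    hurwitzZeta_neg_nat hm ⟨div_nonneg (Nat.cast_nonneg _) hq.le,
      (div_le_one hq).mpr (by exact_mod_cast (ZMod.val_lt j).le)⟩,
    show (((j.val : ℝ) / q : ℝ) : ℂ) = algebraMap ℚ ℂ ((j.val : ℚ) / q) by
      rw [eq_ratCast, Rat.cast_div, Rat.cast_natCast, Rat.cast_natCast, Complex.ofReal_div, Complex.ofReal_natCast,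
        Complex.ofReal_natCast],
    Polynomial.eval_map_algebraMap, Polynomial.aeval_algebraMap_apply_eq_algebraMap_eval, neg_neg, cpow_natCast,
    bernoulliWeight]
  simp only [eq_ratCast]
  push_cast
  ring

/-- An even character does not vanish at negative odd integers. -/
theorem LFunction_ne_zero_of_even {q : ℕ} [NeZero q] {ψ : DirichletCharacter ℂ q} (hprim : ψ.IsPrimitive)
    (he : ψ.Even) (k : ℕ) : LFunction ψ (-((2 * k + 1 : ℕ) : ℂ)) ≠ 0 := by
  intro h
  have hs : (-((2 * k + 1 : ℕ) : ℂ)) = 1 - ((2 * k + 2 : ℕ) : ℂ) := by push_cast; ring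
  have hne0 : (-((2 * k + 1 : ℕ) : ℂ)) ≠ 0 := neg_ne_zero.mpr (Nat.cast_ne_zero.mpr (by omega))
  rw [LFunction_eq_completed_div_gammaFactor _ _ (Or.inl hne0), div_eq_zero_iff] at h
  rcases h with h | h
  · rw [hs, hprim.completedLFunction_one_sub, mul_eq_zero, mul_eq_zero] at h
    have hW : rootNumber ψ ≠ 0 := left_ne_zero_of_mul_eq_one (rootNumber_mul_inv hprim)
    rcases h with (h | h) | h
    · exact absurd (cpow_eq_zero_iff _ _ |>.mp h).1 (Nat.cast_ne_zero.mpr (NeZero.ne q))
    · exact hW h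
    · have hL := LFunction_eq_completed_div_gammaFactor ψ⁻¹ ((2 * k + 2 : ℕ) : ℂ)
        (Or.inl (Nat.cast_ne_zero.mpr (by omega)))
      rw [h, zero_div] at hL
      refine LFunction_ne_zero_of_one_le_re ψ⁻¹ (Or.inr fun e => ?_) ?_ hL
      · have : (2 * k + 2 : ℕ) = 1 := by exact_mod_cast e
        omega
      · rw [natCast_re]
        exact_mod_cast (by omega : 1 ≤ 2 * k + 2)
  · rw [he.gammaFactor_def, Gammaℝ_eq_zero_iff] at h
    obtain ⟨i, hi⟩ := h
    have : (2 * k + 1 : ℕ) = 2 * i := by exact_mod_cast neg_inj.mp hi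
    omega

variable {n : ℕ} [NeZero n]

local instance instNeZeroConductorKS (χ : DirichletCharacter ℂ n) : NeZero χ.conductor :=
  ⟨χ.conductor_ne_zero⟩

/-- `L(-m, ψ)` at any level, as the finite sum. -/
def valueNeg (m q : ℕ) (ψ : DirichletCharacter ℂ q) : ℂ :=
  if h : q = 0 then 0 else letI : NeZero q := ⟨h⟩; ∑ j : ZMod q, ψ j * (bernoulliWeight m q j.val : ℂ)

theorem valueNeg_eq {m q : ℕ} [NeZero q] (ψ : DirichletCharacter ℂ q) :
    valueNeg m q ψ = ∑ j : ZMod q, ψ j * (bernoulliWeight m q j.val : ℂ) := by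
  rw [valueNeg, dif_neg (NeZero.ne q)]

/-- **Rationality.** -/
theorem exists_rat_prod_LFunction {X : Finset (DirichletCharacter ℂ n)}
    (hX : ∀ χ ∈ X, ∀ a : ℕ, χ ^ a ∈ X) {m : ℕ} (hm : m ≠ 0) :
    ∃ r : ℚ, ∏ χ ∈ X, LFunction χ.primitiveCharacter (-(m : ℂ)) = (r : ℂ) := by
  set e := n.totient with he_def
  haveI : NeZero e := ⟨(Nat.totient_pos.mpr (NeZero.pos n)).ne'⟩
  haveI : NeZero (e : ℚ) := ⟨Nat.cast_ne_zero.mpr (NeZero.ne e)⟩
  let M := CyclotomicField e ℚ
  haveI : IsCyclotomicExtension {e} ℚ M := CyclotomicField.isCyclotomicExtension e ℚ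
  haveI : IsGalois ℚ M := IsCyclotomicExtension.isGalois {e} ℚ M
  haveI : NumberField M := IsCyclotomicExtension.numberField {e} ℚ M
  let ι : M →+* ℂ := Classical.choice (inferInstance : Nonempty _)
  have hχe : ∀ χ : DirichletCharacter ℂ n, χ ^ e = 1 := fun χ => MulChar.ext fun u => by
    rw [MulChar.pow_apply_coe, ← map_pow, ← Units.val_pow_eq_pow_val, he_def, ← ZMod.card_units_eq_totient n,
      pow_card_eq_one, Units.val_one, map_one, MulChar.one_apply_coe]
  have hroot : ∀ (χ : DirichletCharacter ℂ n) (j : ZMod χ.conductor),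
      χ.primitiveCharacter j = 0 ∨ χ.primitiveCharacter j ^ e = 1 := fun χ j => by
    by_cases hj : IsUnit j
    · right
      have h : χ.primitiveCharacter ^ e = 1 := changeLevel_injective χ.conductor_dvd_level (by
        rw [map_pow, changeLevel_primitiveCharacter, hχe, map_one])
      rw [← MulChar.pow_apply' _ (NeZero.ne e), h, MulChar.one_apply hj]
    · exact Or.inl (MulChar.map_nonunit _ hj)
  have hmem : ∀ z : ℂ, z = 0 ∨ z ^ e = 1 → ∃ y : M, ι y = z := fun z hz => by
    rcases hz with rfl | hz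
    · exact ⟨0, map_zero _⟩
    · have hζ := (IsCyclotomicExtension.zeta_spec e ℚ M).map_of_injective (f := ι) ι.injective
      obtain ⟨i, -, hi⟩ := hζ.eq_pow_of_pow_eq_one hz
      exact ⟨IsCyclotomicExtension.zeta e ℚ M ^ i, by rw [map_pow, hi]⟩
  set y : ℂ → M := Function.invFun ι
  have hy : ∀ z : ℂ, z = 0 ∨ z ^ e = 1 → ι (y z) = z := fun z hz => Function.invFun_eq (hmem z hz)
  let Y : DirichletCharacter ℂ n → M := fun χ => ∑ j : ZMod χ.conductor,
    y (χ.primitiveCharacter j) * algebraMap ℚ M (bernoulliWeight m χ.conductor j.val)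
  have hY : ∀ χ : DirichletCharacter ℂ n, ι (Y χ) = LFunction χ.primitiveCharacter (-(m : ℂ)) := fun χ => by
    haveI : NeZero χ.conductor := ⟨χ.conductor_ne_zero⟩
    rw [LFunction_neg_nat_eq _ hm, map_sum]
    refine Finset.sum_congr rfl fun j _ => ?_
    rw [map_mul, hy _ (hroot χ j)]
    congr 1
    exact map_ratCast ι _
  have hfix : ∀ σ : M ≃ₐ[ℚ] M, σ (∏ χ ∈ X, Y χ) = ∏ χ ∈ X, Y χ := fun σ => by
    set u := IsCyclotomicExtension.Rat.galEquivZMod e M σ
    set a := (u : ZMod e).val + e with ha_def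
    have ha0 : a ≠ 0 := by
      have := NeZero.pos e
      omega
    set b := ((u⁻¹ : (ZMod e)ˣ) : ZMod e).val + e
    have hab : a * b % e = 1 % e := by
      rw [← ZMod.val_natCast (n := e), ← ZMod.val_natCast (n := e) 1]
      congr 1
      rw [ha_def, Nat.cast_mul, Nat.cast_add, Nat.cast_add, ZMod.natCast_self, add_zero, add_zero,
        ZMod.natCast_zmod_val, ZMod.natCast_zmod_val, Nat.cast_one, Units.mul_inv]
    have hback : ∀ χ : DirichletCharacter ℂ n, (χ ^ a) ^ b = χ ∧ (χ ^ b) ^ a = χ := fun χ => by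
      rw [← pow_mul, ← pow_mul, mul_comm b a, pow_eq_pow_mod _ (hχe χ), hab, ← pow_eq_pow_mod _ (hχe χ), pow_one]
      exact ⟨rfl, rfl⟩
    have hσy : ∀ z : ℂ, z = 0 ∨ z ^ e = 1 → σ (y z) = y (z ^ a) := fun z hz => by
      have hza : z ^ a = 0 ∨ (z ^ a) ^ e = 1 := by
        rcases hz with rfl | hz
        · exact Or.inl (zero_pow ha0)
        · exact Or.inr (by rw [pow_right_comm, hz, one_pow])
      refine ι.injective ?_
      rw [hy _ hza]
      rcases hz with rfl | hz
      · rw [show y 0 = 0 from ι.injective (by rw [hy 0 (Or.inl rfl), map_zero]), map_zero, map_zero, zero_pow ha0]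
      · have h1 : y z ^ e = 1 := ι.injective (by rw [map_pow, hy z (Or.inr hz), hz, map_one])
        rw [IsCyclotomicExtension.Rat.galEquivZMod_apply_of_pow_eq e M σ h1, map_pow, hy z (Or.inr hz), ha_def,
          pow_add, hz, mul_one]
    have hσY : ∀ χ : DirichletCharacter ℂ n, σ (Y χ) = Y (χ ^ a) := fun χ => by
      haveI : NeZero χ.conductor := ⟨χ.conductor_ne_zero⟩
      have hcond : (χ ^ a).conductor = χ.conductor := dvd_antisymm (conductor_pow_dvd χ a) (by
        conv_lhs => rw [← (hback χ).1]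
        exact conductor_pow_dvd (χ ^ a) b)
      have hprim : (χ.primitiveCharacter ^ a).IsPrimitive := by
        rw [isPrimitive_def]
        conv_rhs => rw [← hcond]
        rw [← conductor_changeLevel (χ.primitiveCharacter ^ a) χ.conductor_dvd_level, map_pow,
          changeLevel_primitiveCharacter]
      refine ι.injective ?_
      rw [hY (χ ^ a)]
      haveI : NeZero (χ ^ a).conductor := ⟨(χ ^ a).conductor_ne_zero⟩
      rw [LFunction_neg_nat_eq _ hm, ← valueNeg_eq,
        primitive_unique χ.conductor_dvd_level hprim (by rw [map_pow, changeLevel_primitiveCharacter]) (valueNeg m),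
        valueNeg_eq, map_sum, map_sum]
      refine Finset.sum_congr rfl fun j _ => ?_
      rw [map_mul, AlgEquiv.commutes, map_mul, hσy _ (hroot χ j), MulChar.pow_apply' _ ha0]
      have hza : χ.primitiveCharacter j ^ a = 0 ∨ (χ.primitiveCharacter j ^ a) ^ e = 1 := by
        rcases hroot χ j with h | h
        · exact Or.inl (by rw [h, zero_pow ha0])
        · exact Or.inr (by rw [pow_right_comm, h, one_pow])
      rw [hy _ hza]
      congr 1
      exact map_ratCast ι _
    rw [map_prod, Finset.prod_congr rfl fun χ _ => hσY χ]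
    exact Finset.prod_nbij' (fun χ => χ ^ a) (fun χ => χ ^ b) (fun χ hχ => hX χ hχ a) (fun χ hχ => hX χ hχ b)
      (fun χ _ => (hback χ).1) (fun χ _ => (hback χ).2) fun _ _ => rfl
  obtain ⟨r, hr⟩ := (IsGalois.mem_range_algebraMap_iff_fixed _).mpr hfix
  refine ⟨r, ?_⟩
  rw [← Finset.prod_congr rfl fun χ _ => hY χ, ← map_prod, ← hr]
  exact map_ratCast ι r

end FA.AbelianFE
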