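import Fermat.Agent.Root.SummaryConductorDiscriminant
import Mathlib.NumberTheory.NumberField.InfinitePlace.TotallyRealComplex

/-!
# The characters of a subfield of `ℚ(ζ_n)` and its infinite places

`r₁ + r₂` characters of the field are even and `r₂` odd.
-/

set_option autoImplicit false
set_option linter.style.haveILetI false

noncomputable section

open NumberField InfinitePlace DirichletCharacter
open scoped Classical

namespace FA.AbelianFE

/-- The real places of isomorphic fields. -/
theorem nrRealPlaces_congr {F F' : Type*} [Field F] [NumberField F] [Field F'] [NumberField F'] (e : F ≃+* F') :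
    nrRealPlaces F = nrRealPlaces F' := by
  refine Fintype.card_congr (Equiv.subtypeEquiv
    { toFun := fun w => w.comap e.symm.toRingHom
      invFun := fun w => w.comap e.toRingHom
      left_inv := fun w => ?_
      right_inv := fun w => ?_ } fun w => ?_)
  · exact InfinitePlace.ext _ _ fun x => congrArg w (e.symm_apply_apply x)
  · exact InfinitePlace.ext _ _ fun x => congrArg w (e.apply_symm_apply x)
  · exact (InfinitePlace.isReal_comap_iff (f := e.symm)).symm

/-- The complex places of isomorphic fields. -/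
theorem nrComplexPlaces_congr {F F' : Type*} [Field F] [NumberField F] [Field F'] [NumberField F'] (e : F ≃+* F') :
    nrComplexPlaces F = nrComplexPlaces F' := by
  have h := InfinitePlace.card_add_two_mul_card_eq_rank F
  rw [(AlgEquiv.ofRingEquiv (f := e) fun x => by simp : F ≃ₐ[ℚ] F').toLinearEquiv.finrank_eq,
    ← InfinitePlace.card_add_two_mul_card_eq_rank F', nrRealPlaces_congr e] at h
  omega

variable (n : ℕ) [NeZero n] (K : Type*) [Field K] [NumberField K] [IsCyclotomicExtension {n} ℚ K]

/-- The automorphism `-1` is complex conjugation. -/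
theorem embedding_conj (φ : K →ₐ[ℚ] ℂ) (x : K) :
    φ ((IsCyclotomicExtension.Rat.galEquivZMod n K).symm (-1) x) = starRingEnd ℂ (φ x) := by
  have hζ := IsCyclotomicExtension.zeta_spec n ℚ K
  set e := IsCyclotomicExtension.Rat.galEquivZMod n K
  have h : φ.comp (e.symm (-1)).toAlgHom = (Complex.conjAe.toAlgHom.restrictScalars ℚ).comp φ := by
    refine (hζ.powerBasis ℚ).algHom_ext ?_
    rw [hζ.powerBasis_gen ℚ]
    show φ (e.symm (-1) (IsCyclotomicExtension.zeta n ℚ K)) = starRingEnd ℂ (φ (IsCyclotomicExtension.zeta n ℚ K))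
    have h1 : φ (IsCyclotomicExtension.zeta n ℚ K) ^ n = 1 := by rw [← map_pow, hζ.pow_eq_one, map_one]
    rw [IsCyclotomicExtension.Rat.galEquivZMod_apply_of_pow_eq n K _ hζ.pow_eq_one, map_pow, e.apply_symm_apply,
      ← Complex.inv_eq_conj (Complex.norm_eq_one_of_pow_eq_one h1 (NeZero.ne n))]
    refine eq_inv_of_mul_eq_one_left ?_
    rw [← pow_succ]
    obtain ⟨j, hj⟩ : n ∣ ((-1 : (ZMod n)ˣ) : ZMod n).val + 1 := by
      rw [← ZMod.natCast_eq_zero_iff, Nat.cast_add, ZMod.natCast_zmod_val, Units.val_neg, Units.val_one, Nat.cast_one,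
        neg_add_cancel]
    rw [hj, pow_mul, h1, one_pow]
  exact DFunLike.congr_fun h x

variable [IsAbelianGalois ℚ K] (E : IntermediateField ℚ K)

/-- Even characters are those killing `-1`. -/
theorem filter_even_eq :
    (Finset.univ.filter fun χ => χ ∈ FA.AbelianZeta.fieldChars n K E ∧ χ.Even) =
      FA.ConductorDiscr.charsTrivialOn n (FA.ConductorDiscr.fieldUnits n K E ⊔ Subgroup.zpowers (-1)) := by
  ext χ
  simp only [FA.ConductorDiscr.charsTrivialOn, Finset.mem_filter, Finset.mem_univ, true_and,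
    FA.ConductorDiscr.forall_mem_sup_apply_eq_one, FA.AbelianZeta.mem_fieldChars_iff]
  refine and_congr ⟨fun h g ⟨σ, hσ, e⟩ => e ▸ h σ hσ, fun h σ hσ => h _ ⟨σ, hσ, rfl⟩⟩ ⟨fun h g hg => ?_, fun h => ?_⟩
  · obtain ⟨i, rfl⟩ := Subgroup.mem_zpowers_iff.mp hg
    rcases Int.even_or_odd i with hi | hi
    · rw [hi.neg_one_zpow, Units.val_one, map_one]
    · rw [hi.neg_one_zpow, Units.val_neg, Units.val_one]
      exact h
  · have h' := h (-1) (Subgroup.mem_zpowers _)
    rwa [Units.val_neg, Units.val_one] at h'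

/-- All of them. -/
theorem filter_eq :
    (Finset.univ.filter fun χ => χ ∈ FA.AbelianZeta.fieldChars n K E) =
      FA.ConductorDiscr.charsTrivialOn n (FA.ConductorDiscr.fieldUnits n K E) := by
  ext χ
  simp only [FA.ConductorDiscr.charsTrivialOn, Finset.mem_filter, Finset.mem_univ, true_and,
    FA.AbelianZeta.mem_fieldChars_iff]
  exact ⟨fun h g ⟨σ, hσ, e⟩ => e ▸ h σ hσ, fun h σ hσ => h _ ⟨σ, hσ, rfl⟩⟩

/-- Its count is the degree. -/
theorem card_fieldChars :
    (Finset.univ.filter fun χ => χ ∈ FA.AbelianZeta.fieldChars n K E).card = Module.finrank ℚ E := by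
  rw [← IsCyclotomicExtension.Rat.card_intermediateFieldEquivSubgroupChar n K ℂ E, ← Nat.card_eq_finsetCard]
  exact Nat.card_congr (Equiv.subtypeEquivRight fun χ => by
    simp only [Finset.mem_filter, Finset.mem_univ, true_and, FA.AbelianZeta.fieldChars])

/-- **Even and odd characters count the places.** -/
theorem card_even_eq :
    (Finset.univ.filter fun χ => χ ∈ FA.AbelianZeta.fieldChars n K E ∧ χ.Even).card =
      nrRealPlaces E + nrComplexPlaces E := by
  set c := (IsCyclotomicExtension.Rat.galEquivZMod n K).symm (-1) with hc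
  have hall := card_fieldChars n K E
  have hplaces := InfinitePlace.card_add_two_mul_card_eq_rank E
  have hlift : ∀ ψ : E →+* ℂ, ∃ φ : K →ₐ[ℚ] ℂ, ∀ y : E, φ (y : K) = ψ y := fun ψ =>
    ⟨(ComplexEmbedding.lift K ψ).toRatAlgHom, fun y =>
      DFunLike.congr_fun (ComplexEmbedding.lift_comp_algebraMap K ψ) y⟩
  have hmem : (-1 : (ZMod n)ˣ) ∈ FA.ConductorDiscr.fieldUnits n K E ↔ c ∈ E.fixingSubgroup :=
    Subgroup.mem_map_equiv
  by_cases hcE : c ∈ E.fixingSubgroup
  · haveI : IsTotallyReal E := ⟨fun v => by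
      obtain ⟨φ, hφ⟩ := hlift v.embedding
      rw [InfinitePlace.isReal_iff, ComplexEmbedding.isReal_iff]
      refine RingHom.ext fun y => ?_
      rw [ComplexEmbedding.conjugate_coe_eq, ← hφ y, ← embedding_conj n K φ (y : K)]
      rw [(IntermediateField.mem_fixingSubgroup_iff E c).mp hcE (y : K) y.2]⟩
    have h0 : nrComplexPlaces E = 0 := IsTotallyReal.nrComplexPlaces_eq_zero _
    rw [filter_eq] at hall
    rw [filter_even_eq, sup_eq_left.mpr (by rw [Subgroup.zpowers_le]; exact hmem.mpr hcE), hall, ← hplaces, h0]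
  · haveI : IsTotallyComplex E := ⟨fun v => InfinitePlace.not_isReal_iff_isComplex.mp fun hv => hcE (by
      obtain ⟨φ, hφ⟩ := hlift v.embedding
      rw [IntermediateField.mem_fixingSubgroup_iff]
      intro y hy
      refine φ.toRingHom.injective ?_
      show φ (c y) = φ y
      rw [embedding_conj n K φ y, hφ ⟨y, hy⟩]
      exact (ComplexEmbedding.conjugate_coe_eq _ _).symm.trans
        (DFunLike.congr_fun (ComplexEmbedding.isReal_iff.mp (InfinitePlace.isReal_iff.mp hv)) _))⟩
    have h0 : nrRealPlaces E = 0 := IsTotallyComplex.nrRealPlaces_eq_zero _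
    set H := FA.ConductorDiscr.fieldUnits n K E
    set Z := Subgroup.zpowers (-1 : (ZMod n)ˣ)
    have hne : (-1 : (ZMod n)ˣ) ∉ H := fun h => hcE (hmem.mp h)
    have hord : orderOf (-1 : (ZMod n)ˣ) = 2 :=
      orderOf_eq_prime (by rw [pow_two, neg_mul_neg, one_mul]) (fun e => hne (by rw [e]; exact H.one_mem))
    have hrel : H.relIndex Z = 2 := by
      have hinf : H ⊓ Z = ⊥ := by
        refine eq_bot_iff.mpr fun g hg => ?_
        obtain ⟨i, rfl⟩ := Subgroup.mem_zpowers_iff.mp (Subgroup.mem_inf.mp hg).2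
        rcases Int.even_or_odd i with hi | hi
        · rw [hi.neg_one_zpow]; exact Subgroup.one_mem _
        · rw [hi.neg_one_zpow] at hg; exact absurd (Subgroup.mem_inf.mp hg).1 hne
      rw [← Subgroup.inf_relIndex_right, hinf, Subgroup.relIndex_bot_left, Nat.card_zpowers, hord]
    have hidx := Subgroup.relIndex_mul_index (le_sup_left : H ≤ H ⊔ Z)
    rw [Subgroup.relIndex_sup_left, hrel] at hidx
    rw [filter_eq, FA.ConductorDiscr.card_charsTrivialOn] at hall
    rw [filter_even_eq, FA.ConductorDiscr.card_charsTrivialOn]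
    show (H ⊔ Z).index = _
    change H.index = _ at hall
    omega

end FA.AbelianFE
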