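import Fermat.Agent.AbelianFE.Split
import Fermat.Agent.Root.SummaryGaussSum
import Mathlib.NumberTheory.LegendreSymbol.JacobiSymbol
import Mathlib.NumberTheory.LSeries.DirichletContinuation

/-!
# Real primitive characters have root number one

Gauss's sign at every conductor: the odd part of such a character is a Jacobi symbol, glued by reciprocity, and
its part at `2` has conductor `4` or `8`.
-/

set_option autoImplicit false

noncomputable section

open DirichletCharacter
open scoped Real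

namespace FA.AbelianFE

/-- `1` or `i`. -/
def gaussSign (m : ℕ) : ℂ := if m % 4 = 1 then 1 else Complex.I

/-- The two values of a real character. -/
theorem apply_eq_one_or_neg_one {N : ℕ} {χ : DirichletCharacter ℂ N} (hq : χ ^ 2 = 1) (u : (ZMod N)ˣ) :
    χ u = 1 ∨ χ u = -1 := by
  refine sq_eq_one_iff.mp ?_
  rw [← MulChar.pow_apply_coe, hq, MulChar.one_apply_coe]

/-- **Odd prime powers**: the conductor is at most the prime. -/
theorem exponent_le_one_of_real {p k : ℕ} (hp : p.Prime) (hp2 : p ≠ 2) [NeZero (p ^ k)]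
    {χ : DirichletCharacter ℂ (p ^ k)} (hprim : χ.IsPrimitive) (hq : χ ^ 2 = 1) : k ≤ 1 := by
  by_contra! hk
  have : NeZero p := ⟨hp.ne_zero⟩
  have hd : p ∣ p ^ k := dvd_pow_self p (by omega)
  have hf : χ.FactorsThrough p := by
    rw [factorsThrough_iff_ker_unitsMap hd]
    intro u hu
    have hcard : Nat.card (ZMod.unitsMap hd).ker = p ^ (k - 1) := by
      have h := Subgroup.card_mul_index (ZMod.unitsMap hd).ker
      rw [Subgroup.index_ker, MonoidHom.range_eq_top.mpr (ZMod.unitsMap_surjective hd), Subgroup.card_top] at h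
      simp only [Nat.card_eq_fintype_card, ZMod.card_units_eq_totient] at h ⊢
      rw [Nat.totient_prime hp, Nat.totient_prime_pow hp (by omega)] at h
      exact Nat.eq_of_mul_eq_mul_right (Nat.sub_pos_of_lt hp.one_lt) h
    have h2 : (u : (ZMod (p ^ k))ˣ) ^ p ^ (k - 1) = 1 := by
      rw [← hcard]
      exact congrArg Subtype.val (pow_card_eq_one' (x := (⟨u, hu⟩ : (ZMod.unitsMap hd).ker)))
    rw [MonoidHom.mem_ker, Units.ext_iff, MulChar.coe_toUnitHom, Units.val_one]
    have h3 : χ u ^ p ^ (k - 1) = 1 := by rw [← map_pow, ← Units.val_pow_eq_pow_val, h2, Units.val_one, map_one]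
    rcases apply_eq_one_or_neg_one hq u with e | e
    · exact e
    · rw [e, ((hp.odd_of_ne_two hp2).pow).neg_one_pow] at h3
      norm_num at h3
  have h := Nat.le_of_dvd hp.pos (conductor_dvd_of_mem_conductorSet χ hf)
  rw [(isPrimitive_def χ).mp hprim] at h
  have hlt : p ^ 1 < p ^ k := Nat.pow_lt_pow_right hp.one_lt hk
  rw [pow_one] at hlt
  omega

/-- **Odd primes**: the Legendre symbol. -/
theorem eq_quadraticChar_of_real {p : ℕ} [Fact p.Prime] (hp2 : p ≠ 2) {χ : DirichletCharacter ℂ p}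
    (hprim : χ.IsPrimitive) (hq : χ ^ 2 = 1) (x : ZMod p) : χ x = (quadraticChar (ZMod p) x : ℂ) := by
  have hchar : ringChar (ZMod p) ≠ 2 := (ZMod.ringChar_zmod_n p).trans_ne hp2
  have hne : χ ≠ 1 := fun e => by
    rw [e, isPrimitive_def, conductor_one] at hprim
    exact (Fact.out : p.Prime).ne_one hprim.symm
  obtain ⟨g, hg⟩ := IsCyclic.exists_generator (α := (ZMod p)ˣ)
  have hg' : ∀ y : (ZMod p)ˣ, ∃ i : ℕ, g ^ i = y := fun y =>
    (mem_powers_iff_mem_zpowers.mpr (hg y))
  have hχg : χ g = -1 := by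
    refine (apply_eq_one_or_neg_one hq g).resolve_left fun e => hne (MulChar.ext fun y => ?_)
    obtain ⟨i, rfl⟩ := hg' y
    rw [Units.val_pow_eq_pow_val, map_pow, e, one_pow, ← Units.val_pow_eq_pow_val, MulChar.one_apply_coe]
  have hqg : quadraticChar (ZMod p) g = -1 := by
    refine (quadraticChar_dichotomy g.ne_zero).resolve_left fun e => ?_
    obtain ⟨a, ha⟩ := quadraticChar_exists_neg_one hchar
    have ha0 : a ≠ 0 := fun h0 => by rw [h0, MulChar.map_zero] at ha; norm_num at ha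
    obtain ⟨i, hi⟩ := hg' (Units.mk0 a ha0)
    rw [show a = ((g ^ i : (ZMod p)ˣ) : ZMod p) by rw [hi]; rfl, Units.val_pow_eq_pow_val, map_pow, e,
      one_pow] at ha
    norm_num at ha
  by_cases hx : x = 0
  · rw [hx, MulChar.map_zero, MulChar.map_zero, Int.cast_zero]
  · obtain ⟨i, hi⟩ := hg' (Units.mk0 x hx)
    rw [show x = ((g ^ i : (ZMod p)ˣ) : ZMod p) by rw [hi]; rfl, Units.val_pow_eq_pow_val, map_pow, map_pow, hχg,
      hqg]
    push_cast
    rfl

/-- Reciprocity in the form of Gauss sums. -/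
theorem gaussSign_mul {a b : ℕ} (ha : Odd a) (hb : Odd b) (hab : a.Coprime b) :
    ((jacobiSym b a : ℤ) : ℂ) * ((jacobiSym a b : ℤ) : ℂ) * (gaussSign a * gaussSign b) = gaussSign (a * b) := by
  have hsq : jacobiSym b a * jacobiSym b a = 1 := by
    rw [← pow_two]
    exact jacobiSym.sq_one (by rw [Int.gcd_natCast_natCast]; exact hab.symm)
  rw [← Int.cast_mul, jacobiSym.quadratic_reciprocity ha hb,
    show ∀ e : ℤ, jacobiSym b a * (e * jacobiSym b a) = e from fun e => by rw [mul_left_comm, hsq, mul_one]]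
  obtain ⟨i, rfl⟩ := ha
  obtain ⟨j, rfl⟩ := hb
  rw [show (2 * i + 1) / 2 = i by omega, show (2 * j + 1) / 2 = j by omega]
  have hmod : (2 * i + 1) * (2 * j + 1) % 4 = ((2 * i + 1) % 4) * ((2 * j + 1) % 4) % 4 := Nat.mul_mod _ _ _
  simp only [gaussSign]
  rcases Nat.even_or_odd' i with ⟨i, rfl | rfl⟩ <;> rcases Nat.even_or_odd' j with ⟨j, rfl | rfl⟩
  · rw [if_pos (by omega), if_pos (by omega),
      if_pos (by rw [hmod, show (2 * (2 * i) + 1) % 4 = 1 by omega, show (2 * (2 * j) + 1) % 4 = 1 by omega]),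
      Even.neg_one_pow ⟨i * (2 * j), by ring⟩]
    norm_num
  · rw [if_pos (by omega), if_neg (by omega),
      if_neg (by
        rw [hmod, show (2 * (2 * i) + 1) % 4 = 1 by omega, show (2 * (2 * j + 1) + 1) % 4 = 3 by omega]
        omega),
      Even.neg_one_pow ⟨i * (2 * j + 1), by ring⟩]
    norm_num
  · rw [if_neg (by omega), if_pos (by omega),
      if_neg (by
        rw [hmod, show (2 * (2 * i + 1) + 1) % 4 = 3 by omega, show (2 * (2 * j) + 1) % 4 = 1 by omega]
        omega),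
      Even.neg_one_pow ⟨(2 * i + 1) * j, by ring⟩]
    norm_num
  · rw [if_neg (by omega), if_neg (by omega),
      if_pos (by rw [hmod, show (2 * (2 * i + 1) + 1) % 4 = 3 by omega, show (2 * (2 * j + 1) + 1) % 4 = 3 by omega]),
      Odd.neg_one_pow ⟨2 * i * j + i + j, by ring⟩]
    norm_num

/-- **Odd conductors**: a Jacobi symbol, with Gauss's sum. -/
theorem odd_real_primitive (m : ℕ) : ∀ [NeZero m], Odd m → ∀ χ : DirichletCharacter ℂ m, χ.IsPrimitive → χ ^ 2 = 1 →
    (∀ x : ℤ, χ (x : ZMod m) = (jacobiSym x m : ℂ)) ∧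
      gaussSum χ ZMod.stdAddChar = gaussSign m * (Real.sqrt m : ℂ) := by
  induction m using Nat.recOnPrimeCoprime with
  | zero =>
    intro h
    exact absurd rfl (NeZero.ne 0)
  | prime_pow p k hp =>
    intro _ hodd χ hprim hq
    rcases Nat.eq_zero_or_pos k with rfl | hk
    · have hall : ∀ y : ZMod (p ^ 0), y = 1 := fun y =>
        (by rw [pow_zero]; infer_instance : Subsingleton (ZMod (p ^ 0))).elim _ _
      refine ⟨fun x => ?_, ?_⟩
      · rw [hall x, map_one, pow_zero, jacobiSym.one_right, Int.cast_one]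
      · rw [gaussSum, Finset.sum_eq_single (1 : ZMod (p ^ 0)) (fun y _ hy => absurd (hall y) hy)
          (fun h => absurd (Finset.mem_univ _) h), map_one, one_mul, ← hall 0, AddChar.map_zero_eq_one]
        simp [gaussSign]
    · have hp2 : p ≠ 2 := by
        rintro rfl
        exact (Nat.not_odd_iff_even.mpr ((Nat.even_pow).mpr ⟨even_two, hk.ne'⟩)) hodd
      obtain rfl : k = 1 := le_antisymm (exponent_le_one_of_real hp hp2 hprim hq) hk
      have key : ∀ (N : ℕ) [NeZero N], N = p → ∀ ψ : DirichletCharacter ℂ N, ψ.IsPrimitive → ψ ^ 2 = 1 →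
          (∀ x : ℤ, ψ (x : ZMod N) = (jacobiSym x N : ℂ)) ∧
            gaussSum ψ ZMod.stdAddChar = gaussSign N * (Real.sqrt N : ℂ) := by
        rintro N _ rfl ψ hψ hψq
        have := Fact.mk hp
        have heq := eq_quadraticChar_of_real hp2 hψ hψq
        refine ⟨fun x => ?_, ?_⟩
        · rw [heq, ← jacobiSym.legendreSym.to_jacobiSym]
          rfl
        · rw [gaussSum, Finset.sum_congr rfl fun x _ => by rw [heq x], FA.Summary.quadraticGaussSum_sign N hp2,
            gaussSign]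
          split_ifs <;> simp
      exact key (p ^ 1) (pow_one p) χ hprim hq
  | coprime a b ha hb hab hfa hfb =>
    intro _ hodd χ hprim hq
    have : NeZero a := ⟨by omega⟩
    have : NeZero b := ⟨by omega⟩
    obtain ⟨hao, hbo⟩ := Nat.odd_mul.mp hodd
    obtain ⟨hA, hga⟩ := hfa hao _ (fstPart_isPrimitive hab χ hprim) (fstPart_sq hab χ hq)
    obtain ⟨hB, hgb⟩ := hfb hbo _ (sndPart_isPrimitive hab χ hprim) (sndPart_sq hab χ hq)
    refine ⟨fun x => ?_, ?_⟩
    · rw [apply_intCast_eq_mul hab, hA, hB, jacobiSym.mul_right x a b, Int.cast_mul]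
    · rw [gaussSum_split hab, hga, hgb, ← Int.cast_natCast (R := ZMod a), ← Int.cast_natCast (R := ZMod b), hA, hB,
        ← gaussSign_mul hao hbo hab, Nat.cast_mul, Real.sqrt_mul (Nat.cast_nonneg a), Complex.ofReal_mul]
      ring

/-- Units `≡ 1 (mod 8)` are squares modulo every power of two. -/
theorem exists_sq_sub_dvd {a : ℤ} (ha : (8 : ℤ) ∣ a - 1) (j : ℕ) :
    ∃ x : ℤ, (2 : ℤ) ^ (j + 3) ∣ x ^ 2 - a := by
  induction j with
  | zero => exact ⟨1, by rw [show (2 : ℤ) ^ (0 + 3) = 8 by norm_num, one_pow, ← dvd_neg, neg_sub]; exact ha⟩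
  | succ j ih =>
    obtain ⟨x, t, ht⟩ := ih
    rcases Int.even_or_odd t with ⟨r, hr⟩ | ⟨r, hr⟩
    · exact ⟨x, r, by rw [ht, hr]; ring⟩
    · have hx : Odd x := by
        rcases Int.even_or_odd x with ⟨y, hy⟩ | hx
        · exfalso
          obtain ⟨q, hq⟩ := ha
          have h1 : (2 : ℤ) ^ (j + 3) = 2 * (2 ^ (j + 2)) := by ring
          rw [h1, hy] at ht
          have : (2 : ℤ) ∣ 1 := ⟨2 * y ^ 2 - 4 * q - 2 ^ (j + 2) * t, by linear_combination -hq - ht⟩
          norm_num at this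
        · exact hx
      obtain ⟨y, hy⟩ := hx
      exact ⟨x + 2 ^ (j + 2), r + y + 1 + 2 ^ j,
        by linear_combination ht + (2 : ℤ) ^ (j + 3) * hr + (2 : ℤ) ^ (j + 3) * hy⟩

/-- **At two** the conductor divides eight. -/
theorem exponent_le_three_of_real {k : ℕ} {χ : DirichletCharacter ℂ (2 ^ k)} (hprim : χ.IsPrimitive)
    (hq : χ ^ 2 = 1) : k ≤ 3 := by
  by_contra! hk
  have hd : 8 ∣ 2 ^ k := by
    rw [show 8 = 2 ^ 3 by norm_num]
    exact pow_dvd_pow 2 (by omega)
  have hf : χ.FactorsThrough 8 := by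
    rw [factorsThrough_iff_ker_unitsMap hd]
    intro u hu
    rw [MonoidHom.mem_ker, Units.ext_iff, ZMod.unitsMap_val, Units.val_one] at hu
    obtain ⟨j, hj⟩ : ∃ j : ℤ, (j : ZMod (2 ^ k)) = (u : ZMod (2 ^ k)) :=
      ⟨((u : ZMod (2 ^ k)).val : ℕ), by rw [Int.cast_natCast, ZMod.natCast_zmod_val]⟩
    rw [← hj, ZMod.cast_intCast hd, ← Int.cast_one, ZMod.intCast_eq_intCast_iff_dvd_sub] at hu
    obtain ⟨x, hx⟩ := exists_sq_sub_dvd (dvd_sub_comm.mp (by exact_mod_cast hu)) (k - 3)
    rw [show k - 3 + 3 = k by omega] at hx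
    have hx' : (j : ZMod (2 ^ k)) = (x : ZMod (2 ^ k)) ^ 2 := by
      rw [← Int.cast_pow, ZMod.intCast_eq_intCast_iff_dvd_sub]
      exact_mod_cast hx
    have hxu : IsUnit (x : ZMod (2 ^ k)) := (isUnit_pow_iff two_ne_zero).mp (hx' ▸ hj.symm ▸ u.isUnit)
    rw [MonoidHom.mem_ker, Units.ext_iff, MulChar.coe_toUnitHom, Units.val_one, ← hj, hx', map_pow,
      ← MulChar.pow_apply' χ two_ne_zero, hq, MulChar.one_apply hxu]
  have h := Nat.le_of_dvd (by norm_num) (conductor_dvd_of_mem_conductorSet χ hf)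
  rw [(isPrimitive_def χ).mp hprim] at h
  have hlt : 2 ^ 3 < 2 ^ k := Nat.pow_lt_pow_right one_lt_two hk
  omega

/-- `i^a` of the root number. -/
theorem rootNumber_eq_one_of_gaussSum {N : ℕ} [NeZero N] {χ : DirichletCharacter ℂ N}
    (hE : χ.Even → gaussSum χ ZMod.stdAddChar = (Real.sqrt N : ℂ))
    (hO : χ.Odd → gaussSum χ ZMod.stdAddChar = Complex.I * (Real.sqrt N : ℂ)) : rootNumber χ = 1 := by
  have hsq : (N : ℂ) ^ (1 / 2 : ℂ) = (Real.sqrt N : ℂ) := by
    rw [Real.sqrt_eq_rpow, Complex.ofReal_cpow (Nat.cast_nonneg N)]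
    norm_num
  have hne : (Real.sqrt N : ℂ) ≠ 0 :=
    Complex.ofReal_ne_zero.mpr (Real.sqrt_ne_zero'.mpr (Nat.cast_pos.mpr (NeZero.pos N)))
  rcases χ.even_or_odd with he | ho
  · rw [rootNumber, if_pos he, pow_zero, div_one, hE he, hsq, div_self hne]
  · rw [rootNumber, if_neg ho.not_even, pow_one, hO ho, hsq, mul_div_cancel_left₀ _ Complex.I_ne_zero, div_self hne]

/-- The parity from the Jacobi symbol. -/
theorem odd_part_parity {m : ℕ} [NeZero m] (hm : Odd m) {χ : DirichletCharacter ℂ m} (hprim : χ.IsPrimitive)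
    (hq : χ ^ 2 = 1) : χ (-1) = if m % 4 = 1 then 1 else -1 := by
  have h := (odd_real_primitive m hm χ hprim hq).1 (-1)
  rw [Int.cast_neg, Int.cast_one, jacobiSym.at_neg_one hm, ZMod.χ₄_nat_eq_if_mod_four] at h
  rw [h, if_neg (by rw [Nat.odd_iff] at hm; omega)]
  split_ifs <;> norm_num

/-- The Gauss sum at level `4`. -/
theorem gaussSum_four {χ : DirichletCharacter ℂ 4} (h : χ 3 = -1) :
    gaussSum χ ZMod.stdAddChar = Complex.I * 2 := by
  rw [gaussSum]
  rw [show (Finset.univ : Finset (ZMod 4)) = {0, 1, 2, 3} from by decide]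
  rw [Finset.sum_insert (by decide), Finset.sum_insert (by decide), Finset.sum_insert (by decide),
    Finset.sum_singleton, χ.map_nonunit (by decide : ¬ IsUnit (0 : ZMod 4)),
    χ.map_nonunit (by decide : ¬ IsUnit (2 : ZMod 4)), map_one, h]
  have e1 : ZMod.stdAddChar (1 : ZMod 4) = Complex.I := by
    rw [← Int.cast_one, ZMod.stdAddChar_coe]
    rw [show 2 * (π : ℂ) * Complex.I * ((1 : ℤ) : ℂ) / ((4 : ℕ) : ℂ) = (π : ℂ) / 2 * Complex.I by push_cast; ring]
    exact Complex.exp_pi_div_two_mul_I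
  rw [show (3 : ZMod 4) = 3 • (1 : ZMod 4) by decide, AddChar.map_nsmul_eq_pow, e1, Complex.I_pow_three]
  ring

/-- The Gauss sum at level `8`. -/
theorem gaussSum_eight {χ : DirichletCharacter ℂ 8} (h5 : χ 5 = -1) (h3 : χ 3 = 1 ∨ χ 3 = -1) :
    gaussSum χ ZMod.stdAddChar = (if χ 3 = 1 then Complex.I else 1) * (Real.sqrt 8 : ℂ) := by
  rw [gaussSum]
  rw [show (Finset.univ : Finset (ZMod 8)) = {0, 1, 2, 3, 4, 5, 6, 7} from by decide]
  rw [Finset.sum_insert (by decide), Finset.sum_insert (by decide), Finset.sum_insert (by decide),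
    Finset.sum_insert (by decide), Finset.sum_insert (by decide), Finset.sum_insert (by decide),
    Finset.sum_insert (by decide), Finset.sum_singleton, χ.map_nonunit (by decide : ¬ IsUnit (0 : ZMod 8)),
    χ.map_nonunit (by decide : ¬ IsUnit (2 : ZMod 8)), χ.map_nonunit (by decide : ¬ IsUnit (4 : ZMod 8)),
    χ.map_nonunit (by decide : ¬ IsUnit (6 : ZMod 8)), map_one, h5,
    show χ 7 = χ 3 * χ 5 by rw [← map_mul]; exact congrArg χ (by decide), h5]
  set ζ := ZMod.stdAddChar (1 : ZMod 8) with hζdef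
  have hζ : ζ = ((Real.sqrt 2 / 2 : ℝ) : ℂ) * (1 + Complex.I) := by
    rw [hζdef, ← Int.cast_one, ZMod.stdAddChar_coe,
      show 2 * (π : ℂ) * Complex.I * ((1 : ℤ) : ℂ) / ((8 : ℕ) : ℂ) = ((π / 4 : ℝ) : ℂ) * Complex.I by push_cast; ring,
      Complex.exp_mul_I, ← Complex.ofReal_cos, ← Complex.ofReal_sin, Real.cos_pi_div_four, Real.sin_pi_div_four]
    ring
  rw [show (3 : ZMod 8) = 3 • (1 : ZMod 8) by decide, show (5 : ZMod 8) = 5 • (1 : ZMod 8) by decide,
    show (7 : ZMod 8) = 7 • (1 : ZMod 8) by decide]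
  simp only [AddChar.map_nsmul_eq_pow]
  rw [show (3 : ℕ) • (1 : ZMod 8) = 3 by decide, ← hζdef]
  have h8 : Real.sqrt 8 = 2 * Real.sqrt 2 := by
    rw [show (8 : ℝ) = 2 ^ 2 * 2 by norm_num, Real.sqrt_mul (by norm_num), Real.sqrt_sq (by norm_num)]
  have hs : ((Real.sqrt 2 : ℝ) : ℂ) ^ 2 = 2 := by
    rw [← Complex.ofReal_pow, Real.sq_sqrt (by norm_num)]
    norm_num
  have z2 : ζ ^ 2 = Complex.I := by
    rw [hζ]
    push_cast
    linear_combination ((1 + Complex.I) ^ 2 / 4) * hs + (1 / 2 : ℂ) * Complex.I_sq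
  have z3 : ζ ^ 3 = ζ * Complex.I := by rw [pow_succ', z2]
  have z5 : ζ ^ 5 = -ζ := by linear_combination ζ * (ζ ^ 2 + Complex.I) * z2 + ζ * Complex.I_sq
  have z7 : ζ ^ 7 = -(ζ * Complex.I) := by
    rw [show ζ ^ 7 = ζ ^ 5 * ζ ^ 2 by ring, z5, z2]
    ring
  rw [z3, z5, z7, h8, hζ]
  push_cast
  rcases h3 with e | e
  · rw [if_pos e, e]
    linear_combination (Complex.I_sq) * (Real.sqrt 2 : ℂ)
  · rw [if_neg (by rw [e]; norm_num), e]
    linear_combination -(Complex.I_sq) * (Real.sqrt 2 : ℂ)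

/-- **Every real primitive character has root number `1`** (Gauss). -/
theorem rootNumber_eq_one_of_real {N : ℕ} [NeZero N] {χ : DirichletCharacter ℂ N} (hprim : χ.IsPrimitive)
    (hq : χ ^ 2 = 1) : rootNumber χ = 1 := by
  obtain ⟨k, m, hm, rfl⟩ := Nat.exists_eq_two_pow_mul_odd (NeZero.ne N)
  have hmne : NeZero m := ⟨hm.pos.ne'⟩
  have hab : (2 ^ k).Coprime m := Nat.Coprime.pow_left k (Nat.coprime_two_left.mpr hm)
  obtain ⟨hA, hgB⟩ := odd_real_primitive m hm _ (sndPart_isPrimitive hab χ hprim) (sndPart_sq hab χ hq)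
  have hparB := odd_part_parity hm (sndPart_isPrimitive hab χ hprim) (sndPart_sq hab χ hq)
  have hp2 := fstPart_isPrimitive hab χ hprim
  have hq2 := fstPart_sq hab χ hq
  have hneg : χ (-1) = fstPart hab χ (-1) * (if m % 4 = 1 then 1 else -1) := by
    have h := apply_intCast_eq_mul hab χ (-1)
    push_cast at h
    rw [h, hparB]
  have hsplit := gaussSum_split hab χ
  rw [hgB, ← Int.cast_natCast (R := ZMod m), hA] at hsplit
  have hE : χ.Even → χ (-1) = 1 := id
  have hO : χ.Odd → χ (-1) = -1 := id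
  have hm4 : m % 4 = 1 ∨ m % 4 = 3 := by rw [Nat.odd_iff] at hm; omega
  have hk : k ≤ 3 := exponent_le_three_of_real hp2 hq2
  interval_cases k
  · have hall : ∀ y : ZMod (2 ^ 0), y = 1 := fun y =>
      (by rw [pow_zero]; infer_instance : Subsingleton (ZMod (2 ^ 0))).elim _ _
    have h1 : gaussSum (fstPart hab χ) ZMod.stdAddChar = 1 := by
      rw [gaussSum, Finset.sum_eq_single (1 : ZMod (2 ^ 0)) (fun y _ hy => absurd (hall y) hy)
        (fun h => absurd (Finset.mem_univ _) h), map_one, one_mul, ← hall 0, AddChar.map_zero_eq_one]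
    rw [h1, hall (m : ZMod (2 ^ 0)), map_one, one_mul, show jacobiSym ((2 ^ 0 : ℕ) : ℤ) m = 1 by
      simp [jacobiSym.one_left]] at hsplit
    rw [hall (-1), map_one, one_mul] at hneg
    refine rootNumber_eq_one_of_gaussSum (fun he => ?_) (fun ho => ?_) <;>
      rw [hsplit, gaussSign, show (2 ^ 0 * m : ℕ) = m by simp] <;> rcases hm4 with e | e
    · rw [if_pos e]; simp
    · exact absurd (hneg.symm.trans (hE he)) (by rw [if_neg (by omega)]; norm_num)
    · exact absurd (hneg.symm.trans (hO ho)) (by rw [if_pos e]; norm_num)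
    · rw [if_neg (by omega)]; simp
  · exfalso
    have hcard : (2 ^ 1).totient = 1 := by decide
    have hone : fstPart hab χ = 1 := MulChar.ext fun u => by
      have : u = 1 := by
        have := Fintype.card_le_one_iff.mp (le_of_eq ((ZMod.card_units_eq_totient (2 ^ 1)).trans hcard))
        exact this u 1
      rw [this, Units.val_one, map_one, map_one]
    rw [hone, isPrimitive_def, conductor_one] at hp2
    norm_num at hp2
  · have h3 : fstPart hab χ 3 = -1 := by
      have hu : IsUnit (3 : ZMod (2 ^ 2)) := by decide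
      refine ((apply_eq_one_or_neg_one hq2 hu.unit).imp id id).resolve_left fun e => ?_
      rw [IsUnit.unit_spec] at e
      have hone : fstPart hab χ = 1 := MulChar.ext fun u => by
        have : (u : ZMod (2 ^ 2)) = 1 ∨ (u : ZMod (2 ^ 2)) = 3 := by revert u; decide
        rcases this with e' | e' <;> rw [e']
        · rw [map_one, map_one]
        · rw [e, MulChar.one_apply hu]
      rw [hone, isPrimitive_def, conductor_one] at hp2
      norm_num at hp2
    have hg4 : gaussSum (fstPart hab χ) ZMod.stdAddChar = Complex.I * 2 := gaussSum_four h3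
    rw [hg4, show jacobiSym ((2 ^ 2 : ℕ) : ℤ) m = 1 from jacobiSym.at_four hm] at hsplit
    rw [show fstPart hab χ (-1) = fstPart hab χ 3 from congrArg _ (by decide), h3] at hneg
    have hm_cast : fstPart hab χ (m : ZMod (2 ^ 2)) = if m % 4 = 1 then 1 else -1 := by
      rcases hm4 with e | e
      · rw [if_pos e, show (m : ZMod (2 ^ 2)) = 1 by rw [← ZMod.natCast_mod, show m % 2 ^ 2 = 1 from e, Nat.cast_one],
          map_one]
      · rw [if_neg (by omega), show (m : ZMod (2 ^ 2)) = 3 by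
          rw [← ZMod.natCast_mod, show m % 2 ^ 2 = 3 from e]; rfl, h3]
    rw [hm_cast] at hsplit
    have hs : ((Real.sqrt ((2 ^ 2 * m : ℕ) : ℝ) : ℝ) : ℂ) = 2 * (Real.sqrt m : ℂ) := by
      rw [Nat.cast_mul, Real.sqrt_mul (Nat.cast_nonneg _), Nat.cast_pow, Real.sqrt_sq (by norm_num)]
      push_cast; ring
    refine rootNumber_eq_one_of_gaussSum (fun he => ?_) (fun ho => ?_) <;>
      rw [hsplit, gaussSign, hs] <;> rcases hm4 with e | e
    · exact absurd (hneg.symm.trans (hE he)) (by rw [if_pos e]; norm_num)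
    · rw [if_neg (by omega), if_neg (by omega)]; linear_combination (-2 * (Real.sqrt m : ℂ)) * Complex.I_sq
    · rw [if_pos e, if_pos e]; simp; ring
    · exact absurd (hneg.symm.trans (hO ho)) (by rw [if_neg (by omega)]; norm_num)
  · have h5 : fstPart hab χ 5 = -1 := by
      have hu : IsUnit (5 : ZMod (2 ^ 3)) := by decide
      refine (apply_eq_one_or_neg_one hq2 hu.unit).resolve_left fun e => ?_
      rw [IsUnit.unit_spec] at e
      have hd : 2 ^ 2 ∣ 2 ^ 3 := by norm_num
      have hf : (fstPart hab χ).FactorsThrough (2 ^ 2) := by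
        rw [factorsThrough_iff_ker_unitsMap hd]
        intro u hu'
        rw [MonoidHom.mem_ker, Units.ext_iff, MulChar.coe_toUnitHom, Units.val_one]
        have hdec : ∀ x : ZMod (2 ^ 3), (x.cast : ZMod (2 ^ 2)) = 1 → x = 1 ∨ x = 5 := by decide
        rw [MonoidHom.mem_ker, Units.ext_iff, ZMod.unitsMap_val, Units.val_one] at hu'
        have := hdec _ hu'
        rcases this with e' | e' <;> rw [e']
        · rw [map_one]
        · exact e
      have h := conductor_dvd_of_mem_conductorSet _ hf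
      rw [(isPrimitive_def _).mp hp2] at h
      norm_num at h
    have hu3 : IsUnit (3 : ZMod (2 ^ 3)) := by decide
    have h3 : fstPart hab χ 3 = 1 ∨ fstPart hab χ 3 = -1 := by
      have := apply_eq_one_or_neg_one hq2 hu3.unit
      rwa [IsUnit.unit_spec] at this
    have hg8 : gaussSum (fstPart hab χ) ZMod.stdAddChar =
        (if fstPart hab χ 3 = 1 then Complex.I else 1) * (Real.sqrt 8 : ℂ) := gaussSum_eight h5 h3
    rw [hg8, show jacobiSym ((2 ^ 3 : ℕ) : ℤ) m = ZMod.χ₈ m by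
      rw [show ((2 ^ 3 : ℕ) : ℤ) = 4 * 2 by norm_num, jacobiSym.mul_left, jacobiSym.at_four hm, jacobiSym.at_two hm,
        one_mul]] at hsplit
    rw [show fstPart hab χ (-1) = fstPart hab χ 3 * fstPart hab χ 5 by
      rw [← map_mul]; exact congrArg _ (by decide), h5] at hneg
    have hcast : fstPart hab χ (m : ZMod (2 ^ 3)) * ((ZMod.χ₈ m : ℤ) : ℂ) =
        if m % 4 = 1 then 1 else -fstPart hab χ 3 := by
      rw [ZMod.χ₈_nat_eq_if_mod_eight, if_neg (show ¬ m % 2 = 0 by omega)]
      have h8 : m % 8 = 1 ∨ m % 8 = 3 ∨ m % 8 = 5 ∨ m % 8 = 7 := by omega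
      rcases h8 with e | e | e | e
      · rw [show (m : ZMod (2 ^ 3)) = 1 by rw [← ZMod.natCast_mod, show m % 2 ^ 3 = 1 from e, Nat.cast_one],
          if_pos (show m % 4 = 1 by omega), if_pos (Or.inl e)]
        simp
      · rw [show (m : ZMod (2 ^ 3)) = 3 by rw [← ZMod.natCast_mod, show m % 2 ^ 3 = 3 from e]; rfl,
          if_neg (show ¬ m % 4 = 1 by omega), if_neg (show ¬ (m % 8 = 1 ∨ m % 8 = 7) by omega)]
        simp
      · rw [show (m : ZMod (2 ^ 3)) = 5 by rw [← ZMod.natCast_mod, show m % 2 ^ 3 = 5 from e]; rfl, h5,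
          if_pos (show m % 4 = 1 by omega), if_neg (show ¬ (m % 8 = 1 ∨ m % 8 = 7) by omega)]
        simp
      · rw [show (m : ZMod (2 ^ 3)) = 3 * 5 by rw [← ZMod.natCast_mod, show m % 2 ^ 3 = 7 from e]; decide,
          map_mul, h5, if_neg (show ¬ m % 4 = 1 by omega), if_pos (Or.inr e)]
        simp
    rw [hcast] at hsplit
    have hs : ((Real.sqrt ((2 ^ 3 * m : ℕ) : ℝ) : ℝ) : ℂ) = (Real.sqrt 8 : ℂ) * (Real.sqrt m : ℂ) := by
      rw [Nat.cast_mul, Real.sqrt_mul (Nat.cast_nonneg _), Complex.ofReal_mul]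
      norm_num
    refine rootNumber_eq_one_of_gaussSum (fun he => ?_) (fun ho => ?_) <;>
      rw [hsplit, gaussSign, hs] <;> rcases hm4 with e | e <;> rcases h3 with t | t
    · exact absurd (hneg.symm.trans (hE he)) (by rw [if_pos e, t]; norm_num)
    · rw [if_pos e, if_pos e, t, if_neg (by norm_num)]; ring
    · have hne : ¬ m % 4 = 1 := by omega
      rw [if_neg hne, if_neg hne, t, if_pos rfl]
      linear_combination (-(Real.sqrt 8 : ℂ) * (Real.sqrt m : ℂ)) * Complex.I_sq
    · exact absurd (hneg.symm.trans (hE he)) (by rw [if_neg (by omega), t]; norm_num)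
    · rw [if_pos e, if_pos e, t, if_pos rfl]; ring
    · exact absurd (hneg.symm.trans (hO ho)) (by rw [if_pos e, t]; norm_num)
    · exact absurd (hneg.symm.trans (hO ho)) (by rw [if_neg (by omega), t]; norm_num)
    · have hne : ¬ m % 4 = 1 := by omega
      rw [if_neg hne, if_neg hne, t, if_neg (by norm_num)]; ring

end FA.AbelianFE
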