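import Fermat.Agent.AbelianFE.ZeroValue
import Fermat.Agent.ConductorDiscr.PlusPart

/-!
# The relative class number formula of an abelian CM field

`h = h⁺ Q w ∏ (-B_{1,χ}/2)` over the odd characters `χ`, through the primitive characters.
-/

set_option autoImplicit false
set_option linter.style.haveILetI false

noncomputable section

open NumberField DirichletCharacter Complex
open scoped Classical Real

namespace FA.AbelianFE

/-- The generalised Bernoulli number at any level. -/
def bernoulliOne' (m : ℕ) (ψ : DirichletCharacter ℂ m) : ℂ :=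
  if h : m = 0 then 0 else letI : NeZero m := ⟨h⟩; bernoulliOne ψ

theorem bernoulliOne'_eq {m : ℕ} [NeZero m] (ψ : DirichletCharacter ℂ m) : bernoulliOne' m ψ = bernoulliOne ψ := by
  rw [bernoulliOne', dif_neg (NeZero.ne m)]

/-- `L(1, ψ)` at any level. -/
def lOne' (m : ℕ) (ψ : DirichletCharacter ℂ m) : ℂ :=
  if h : m = 0 then 0 else letI : NeZero m := ⟨h⟩; LFunction ψ 1

theorem lOne'_eq {m : ℕ} [NeZero m] (ψ : DirichletCharacter ℂ m) : lOne' m ψ = LFunction ψ 1 := by
  rw [lOne', dif_neg (NeZero.ne m)]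

/-- `L(0, χ)` from `L(1, χ⁻¹)`. -/
theorem neg_bernoulliOne_eq {N : ℕ} [NeZero N] {χ : DirichletCharacter ℂ N} (hprim : χ.IsPrimitive) (hχ : χ.Odd) :
    -bernoulliOne χ = (N : ℂ) ^ (1 / 2 : ℂ) * rootNumber χ * (LFunction χ⁻¹ 1 / π) := by
  rw [← LFunction_zero_of_odd hprim hχ]
  have hFE := hprim.completedLFunction_one_sub 1
  rw [sub_self, show (1 : ℂ) - 1 / 2 = 1 / 2 by norm_num] at hFE
  have h0 := LFunction_eq_completed_div_gammaFactor χ 0 (Or.inr (one_lt_of_odd hχ).ne')
  rw [hχ.gammaFactor_def, zero_add, Gammaℝ_one, div_one] at h0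
  have h1 := LFunction_eq_completed_div_gammaFactor χ⁻¹ 1 (Or.inl one_ne_zero)
  have hG2 : Gammaℝ (1 + 1) = 1 / (π : ℂ) := by
    have := Gammaℝ_mul_Gammaℝ_add_one 1
    rwa [Gammaℝ_one, one_mul, Gammaℂ_one] at this
  rw [(odd_inv hχ).gammaFactor_def, hG2, eq_div_iff (by simp)] at h1
  rw [h0, hFE, ← h1]
  ring

/-- **The formula**, for a field embedded into `ℚ(ζ_n)`. -/
theorem relativeClassNumber_eq (n : ℕ) [NeZero n] (K : Type*) [Field K] [NumberField K]
    [IsCyclotomicExtension {n} ℚ K] [IsAbelianGalois ℚ K] (F : Type*) [Field F] [NumberField F] [IsCMField F]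
    (f : F →ₐ[ℚ] K) :
    (classNumber F : ℂ) = classNumber (maximalRealSubfield F) *
      (IsCMField.indexRealUnits F : ℂ) * Units.torsionOrder F *
      ∏ χ ∈ Finset.univ.filter (fun χ => χ ∈ FA.AbelianZeta.fieldChars n K f.fieldRange ∧ χ.Odd),
        (-(bernoulliOne' χ.conductor χ.primitiveCharacter) / 2) := by
  letI : Algebra F K := f.toRingHom.toAlgebra
  haveI : IsTotallyComplex K := isTotallyComplex_of_algebra F K
  let E : IntermediateField ℚ K := f.fieldRange
  let E' : IntermediateField ℚ K := E ⊓ FA.CycloGrowth.plusField K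
  let e : F ≃+* E := (AlgEquiv.ofInjectiveField f).toRingEquiv
  have hmem : ∀ x : F, x ∈ maximalRealSubfield F ↔ f x ∈ maximalRealSubfield K := fun x => by
    rw [mem_maximalRealSubfield_iff, mem_maximalRealSubfield_iff]
    refine ⟨fun h φ => h (φ.comp f.toRingHom), fun h ψ => ?_⟩
    rw [← ComplexEmbedding.lift_comp_algebraMap K ψ]
    exact h (ComplexEmbedding.lift K ψ)
  let e' : maximalRealSubfield F ≃+* E' := RingEquiv.ofBijective
    ({ toFun := fun x => ⟨f x, ⟨x.1, rfl⟩, (hmem x.1).mp x.2⟩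
       map_one' := Subtype.ext (map_one f)
       map_mul' := fun x y => Subtype.ext (map_mul f x.1 y.1)
       map_zero' := Subtype.ext (map_zero f)
       map_add' := fun x y => Subtype.ext (map_add f x.1 y.1) } : maximalRealSubfield F →+* E')
    ⟨fun x y h => Subtype.ext (f.toRingHom.injective (congrArg Subtype.val h)), fun y => by
      obtain ⟨⟨x, hx⟩, hy⟩ := y.2
      exact ⟨⟨x, (hmem x).mpr (show f x ∈ maximalRealSubfield K from hx.symm ▸ hy)⟩, Subtype.ext hx⟩⟩
  set X := Finset.univ.filter fun χ => χ ∈ FA.AbelianZeta.fieldChars n K E with hX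
  set X' := Finset.univ.filter fun χ => χ ∈ FA.AbelianZeta.fieldChars n K E' with hX'
  set O := Finset.univ.filter fun χ => χ ∈ FA.AbelianZeta.fieldChars n K f.fieldRange ∧ χ.Odd with hO
  have hXX : X' = X.filter fun χ => χ.Even := by
    ext χ
    simp only [hX, hX', E', Finset.mem_filter, Finset.mem_univ, true_and, FA.AbelianZeta.fieldChars, map_inf,
      Subgroup.mem_inf]
    exact and_congr_right fun _ => FA.CycloGrowth.mem_fieldChars_plusField n K χ
  have hOeq : O = X \ X' := by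
    ext χ
    simp only [hO, hXX, hX, Finset.mem_sdiff, Finset.mem_filter, Finset.mem_univ, true_and]
    refine ⟨fun h => ⟨h.1, fun h' => ?_⟩, fun h => ⟨h.1, (χ.even_or_odd).resolve_left fun he => h.2 ⟨h.1, he⟩⟩⟩
    have ha : χ (-1) = -1 := h.2
    rw [show χ (-1) = 1 from h'.2] at ha
    norm_num at ha
  have h1 : (1 : DirichletCharacter ℂ n) ∈ X' := Finset.mem_filter.mpr ⟨Finset.mem_univ _, Subgroup.one_mem _⟩
  have hsub : X' ⊆ X := hXX ▸ Finset.filter_subset _ _
  have hcard : 2 * O.card = Module.finrank ℚ F := by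
    have h2 := Module.finrank_mul_finrank ℚ (maximalRealSubfield F) F
    rw [Algebra.IsQuadraticExtension.finrank_eq_two (maximalRealSubfield F) F] at h2
    have h3 := Finset.card_sdiff_add_card_eq_card hsub
    rw [FA.ConductorDiscr.card_chars_eq K E e, FA.ConductorDiscr.card_chars_eq K E' e', ← hOeq] at h3
    omega
  have hd : (discr F).natAbs = (∏ χ ∈ O, χ.conductor) * (discr (maximalRealSubfield F)).natAbs := by
    rw [FA.ConductorDiscr.discr_eq_prod (n := n) K E e, FA.ConductorDiscr.discr_eq_prod (n := n) K E' e', hOeq,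
      Finset.prod_sdiff hsub]
  have hres : (∏ χ ∈ O, LFunction χ.primitiveCharacter 1) * (dedekindZeta_residue (maximalRealSubfield F) : ℂ) =
      (dedekindZeta_residue F : ℂ) := by
    rw [FA.AbelianZeta.residue_eq_prod h1 fun s hs => FA.ConductorDiscr.dedekindZeta_eq_prodL K E' e' hs,
      FA.AbelianZeta.residue_eq_prod (hsub h1) fun s hs => FA.ConductorDiscr.dedekindZeta_eq_prodL K E e hs,
      ← Finset.prod_sdiff (Finset.erase_subset_erase 1 hsub), hOeq]
    congr 1
    exact Finset.prod_congr (by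
      ext χ
      simp only [Finset.mem_sdiff, Finset.mem_erase]
      exact ⟨fun h => ⟨⟨fun e => h.2 (e ▸ h1), h.1⟩, fun h' => h.2 h'.2⟩,
        fun h => ⟨h.1.2, fun h' => h.2 ⟨h.1.1, h'⟩⟩⟩) fun _ _ => rfl
  obtain ⟨j, hj⟩ : ∃ j, O.card = j + 1 := ⟨O.card - 1, by
    have := Module.finrank_pos (R := ℚ) (M := F)
    omega⟩
  have hreal : InfinitePlace.nrRealPlaces F = 0 := IsTotallyComplex.nrRealPlaces_eq_zero F
  have hcplx : InfinitePlace.nrComplexPlaces F = j + 1 := by
    have := IsTotallyComplex.finrank F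
    omega
  have hrank : Units.rank F = j := by
    rw [Units.rank, InfinitePlace.card_eq_nrRealPlaces_add_nrComplexPlaces, hreal, hcplx]
    omega
  have hplus : InfinitePlace.nrRealPlaces (maximalRealSubfield F) = j + 1 ∧
      InfinitePlace.nrComplexPlaces (maximalRealSubfield F) = 0 ∧
      Units.torsionOrder (maximalRealSubfield F) = 2 := by
    have h0 : InfinitePlace.nrComplexPlaces (maximalRealSubfield F) = 0 :=
      IsTotallyReal.nrComplexPlaces_eq_zero _
    have h4 := IsCMField.units_rank_eq_units_rank F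
    rw [hrank, Units.rank, InfinitePlace.card_eq_nrRealPlaces_add_nrComplexPlaces, h0] at h4
    have hpos : 0 < InfinitePlace.nrRealPlaces (maximalRealSubfield F) := by
      have := Fintype.card_pos (α := InfinitePlace (maximalRealSubfield F))
      rw [InfinitePlace.card_eq_nrRealPlaces_add_nrComplexPlaces, h0] at this
      omega
    exact ⟨by omega, h0, FA.Regular.torsionOrder_eq_two_of_real hpos⟩
  have hreg := IsCMField.regulator_div_regulator_eq_two_pow_mul_indexRealUnits_inv F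
  rw [div_eq_iff (Units.regulator_ne_zero _), hrank] at hreg
  rw [dedekindZeta_residue_def, dedekindZeta_residue_def, hreal, hcplx, hplus.1, hplus.2.1, hplus.2.2, hreg,
    show |((discr F : ℤ) : ℝ)| = ((discr F).natAbs : ℝ) by rw [Nat.cast_natAbs, Int.cast_abs],
    show |((discr (maximalRealSubfield F) : ℤ) : ℝ)| = ((discr (maximalRealSubfield F)).natAbs : ℝ) by
      rw [Nat.cast_natAbs, Int.cast_abs], hd, Nat.cast_mul, Nat.cast_prod,
    Real.sqrt_mul (Finset.prod_nonneg fun _ _ => Nat.cast_nonneg _)] at hres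
  push_cast at hres
  simp only [pow_zero, one_mul, mul_one] at hres
  -- the product of the values at `0`
  have hinv : ∀ χ ∈ O, χ⁻¹ ∈ O := fun χ hχ => by
    obtain ⟨h2, h3⟩ := (Finset.mem_filter.mp hχ).2
    exact Finset.mem_filter.mpr ⟨Finset.mem_univ _, Subgroup.inv_mem _ h2, odd_inv h3⟩
  have hterm : ∀ χ ∈ O, -(bernoulliOne' χ.conductor χ.primitiveCharacter) / 2 =
      ((χ.conductor : ℕ) : ℂ) ^ (1 / 2 : ℂ) * rootNumber' χ.conductor χ.primitiveCharacter *
        (lOne' χ⁻¹.conductor χ⁻¹.primitiveCharacter / (2 * π)) := fun χ hχ => by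
    haveI : NeZero χ.conductor := ⟨χ.conductor_ne_zero⟩
    rw [primitive_inv χ lOne', bernoulliOne'_eq, rootNumber'_eq, lOne'_eq, neg_bernoulliOne_eq
      χ.primitiveCharacter_isPrimitive (by
        show χ.primitiveCharacter (-1) = -1
        rw [primitiveCharacter_neg_one]
        exact (Finset.mem_filter.mp hχ).2.2)]
    ring
  have hW : ∏ χ ∈ O, rootNumber' χ.conductor χ.primitiveCharacter = 1 := by
    rw [← prod_rootNumber hinv]
    exact Finset.prod_congr rfl fun χ _ => by
      haveI : NeZero χ.conductor := ⟨χ.conductor_ne_zero⟩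
      exact rootNumber'_eq _
  have hLinv : ∏ χ ∈ O, lOne' χ⁻¹.conductor χ⁻¹.primitiveCharacter =
      ∏ χ ∈ O, LFunction χ.primitiveCharacter 1 := by
    have h5 : ∏ χ ∈ O, lOne' χ⁻¹.conductor χ⁻¹.primitiveCharacter =
        ∏ χ ∈ O, lOne' χ.conductor χ.primitiveCharacter :=
      Finset.prod_nbij' (fun χ => χ⁻¹) (fun χ => χ⁻¹) hinv hinv (fun χ _ => inv_inv χ) (fun χ _ => inv_inv χ)
        fun _ _ => rfl
    rw [h5]
    exact Finset.prod_congr rfl fun χ _ => by
      haveI : NeZero χ.conductor := ⟨χ.conductor_ne_zero⟩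
      exact lOne'_eq _
  rw [Finset.prod_congr rfl hterm, Finset.prod_mul_distrib, Finset.prod_mul_distrib, hW, mul_one,
    Finset.prod_div_distrib, hLinv, Finset.prod_const, hj, ← natCast_prod_cpow,
    show ((∏ χ ∈ O, χ.conductor : ℕ) : ℂ) ^ (1 / 2 : ℂ) = ((Real.sqrt (∏ χ ∈ O, (χ.conductor : ℝ)) : ℝ) : ℂ) by
      rw [Real.sqrt_eq_rpow, ← Nat.cast_prod, Complex.ofReal_cpow (Nat.cast_nonneg _), Complex.ofReal_natCast,
        show (((1 : ℝ) / 2 : ℝ) : ℂ) = 1 / 2 by norm_num]]
  have hs' : ((Real.sqrt ((discr (maximalRealSubfield F)).natAbs : ℝ) : ℝ) : ℂ) ≠ 0 :=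
    Complex.ofReal_ne_zero.mpr
      (Real.sqrt_ne_zero'.mpr (Nat.cast_pos.mpr (Int.natAbs_pos.mpr (discr_ne_zero _))))
  have hsf : ((Real.sqrt (∏ χ ∈ O, (χ.conductor : ℝ)) : ℝ) : ℂ) ≠ 0 := Complex.ofReal_ne_zero.mpr
    (Real.sqrt_ne_zero'.mpr (Finset.prod_pos fun χ _ => Nat.cast_pos.mpr (Nat.pos_of_ne_zero χ.conductor_ne_zero)))
  have hw : (Units.torsionOrder F : ℂ) ≠ 0 := Nat.cast_ne_zero.mpr (Units.torsionOrder_ne_zero F)
  have hQ : (IsCMField.indexRealUnits F : ℂ) ≠ 0 := by
    rcases IsCMField.indexRealUnits_eq_one_or_two F with q | q <;> rw [q] <;> norm_num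
  have hR : ((Units.regulator (maximalRealSubfield F) : ℝ) : ℂ) ≠ 0 :=
    Complex.ofReal_ne_zero.mpr (Units.regulator_ne_zero _)
  have hpi : (π : ℂ) ≠ 0 := Complex.ofReal_ne_zero.mpr Real.pi_ne_zero
  field_simp at hres
  field_simp
  rw [mul_pow] at hres ⊢
  rw [pow_succ (2 : ℂ) j] at hres ⊢
  refine mul_left_cancel₀ (mul_ne_zero (pow_ne_zero j (two_ne_zero (α := ℂ))) (two_ne_zero (α := ℂ))) ?_
  linear_combination -hres

end FA.AbelianFE
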