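import Mathlib.NumberTheory.GaussSum
import Mathlib.NumberTheory.DirichletCharacter.Basic
import Mathlib.Analysis.SpecialFunctions.Complex.CircleAddChar

/-!
# Dirichlet characters and Gauss sums modulo a product of coprime numbers

A character modulo `a b` is the product of one modulo `a` and one modulo `b`, primitive if it is, and its Gauss
sum is `χ₁(b) χ₂(a) g(χ₁) g(χ₂)`.
-/

set_option autoImplicit false

noncomputable section

open DirichletCharacter

namespace FA.AbelianFE

/-- The first component. -/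
def fstPart {a b : ℕ} (h : a.Coprime b) (χ : DirichletCharacter ℂ (a * b)) : DirichletCharacter ℂ a where
  toFun x := χ ((ZMod.chineseRemainder h).symm (x, 1))
  map_one' := by rw [show ((1 : ZMod a), (1 : ZMod b)) = 1 from rfl, map_one, map_one]
  map_mul' x y := by
    rw [← map_mul, ← map_mul, Prod.mk_mul_mk, one_mul]
  map_nonunit' x hx := by
    refine χ.map_nonunit fun hu => hx ?_
    have h' := hu.map (ZMod.chineseRemainder h).toRingHom
    rw [RingEquiv.toRingHom_eq_coe, RingHom.coe_coe, RingEquiv.apply_symm_apply, Prod.isUnit_iff] at h'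
    exact h'.1

/-- The second component. -/
def sndPart {a b : ℕ} (h : a.Coprime b) (χ : DirichletCharacter ℂ (a * b)) : DirichletCharacter ℂ b where
  toFun x := χ ((ZMod.chineseRemainder h).symm (1, x))
  map_one' := by rw [show ((1 : ZMod a), (1 : ZMod b)) = 1 from rfl, map_one, map_one]
  map_mul' x y := by
    rw [← map_mul, ← map_mul, Prod.mk_mul_mk, one_mul]
  map_nonunit' x hx := by
    refine χ.map_nonunit fun hu => hx ?_
    have h' := hu.map (ZMod.chineseRemainder h).toRingHom
    rw [RingEquiv.toRingHom_eq_coe, RingHom.coe_coe, RingEquiv.apply_symm_apply, Prod.isUnit_iff] at h'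
    exact h'.2

variable {a b : ℕ} (h : a.Coprime b) (χ : DirichletCharacter ℂ (a * b))

theorem fstPart_apply (x : ZMod a) : fstPart h χ x = χ ((ZMod.chineseRemainder h).symm (x, 1)) := rfl

theorem sndPart_apply (x : ZMod b) : sndPart h χ x = χ ((ZMod.chineseRemainder h).symm (1, x)) := rfl

/-- The splitting. -/
theorem apply_eq_mul (z : ZMod (a * b)) :
    χ z = fstPart h χ (ZMod.chineseRemainder h z).1 * sndPart h χ (ZMod.chineseRemainder h z).2 := by
  rw [fstPart_apply, sndPart_apply, ← map_mul, ← map_mul, Prod.mk_mul_mk, mul_one, one_mul,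
    RingEquiv.symm_apply_apply]

/-- The splitting at an integer. -/
theorem apply_intCast_eq_mul (x : ℤ) :
    χ (x : ZMod (a * b)) = fstPart h χ (x : ZMod a) * sndPart h χ (x : ZMod b) := by
  rw [apply_eq_mul h χ, map_intCast]
  rfl

theorem fstPart_sq (hq : χ ^ 2 = 1) : fstPart h χ ^ 2 = 1 := by
  refine MulChar.ext fun u => ?_
  have h2 : IsUnit ((ZMod.chineseRemainder h).symm ((u : ZMod a), 1)) :=
    (show IsUnit ((u : ZMod a), (1 : ZMod b)) from Prod.isUnit_iff.mpr ⟨u.isUnit, isUnit_one⟩).map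
      (ZMod.chineseRemainder h).symm.toRingHom
  rw [MulChar.pow_apply_coe, fstPart_apply, MulChar.one_apply_coe, ← MulChar.pow_apply' χ two_ne_zero, hq,
    MulChar.one_apply h2]

theorem sndPart_sq (hq : χ ^ 2 = 1) : sndPart h χ ^ 2 = 1 := by
  refine MulChar.ext fun u => ?_
  have h2 : IsUnit ((ZMod.chineseRemainder h).symm (1, (u : ZMod b))) :=
    (show IsUnit ((1 : ZMod a), (u : ZMod b)) from Prod.isUnit_iff.mpr ⟨isUnit_one, u.isUnit⟩).map
      (ZMod.chineseRemainder h).symm.toRingHom
  rw [MulChar.pow_apply_coe, sndPart_apply, MulChar.one_apply_coe, ← MulChar.pow_apply' χ two_ne_zero, hq,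
    MulChar.one_apply h2]

variable [NeZero a] [NeZero b]

/-- The components of a primitive character are primitive. -/
theorem fstPart_isPrimitive (hp : χ.IsPrimitive) : (fstPart h χ).IsPrimitive := by
  have : NeZero (a * b) := ⟨Nat.mul_ne_zero (NeZero.ne a) (NeZero.ne b)⟩
  set d := (fstPart h χ).conductor with hd
  have hda : d ∣ a := conductor_dvd_level _
  have hker := (factorsThrough_iff_ker_unitsMap hda).mp ((fstPart h χ).factorsThrough_conductor)
  have hdb : d * b ∣ a * b := Nat.mul_dvd_mul_right hda b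
  have hf : χ.FactorsThrough (d * b) := by
    rw [factorsThrough_iff_ker_unitsMap hdb]
    intro u hu
    rw [MonoidHom.mem_ker, Units.ext_iff, ZMod.unitsMap_val, Units.val_one] at hu
    obtain ⟨j, hj⟩ : ∃ j : ℤ, (j : ZMod (a * b)) = (u : ZMod (a * b)) :=
      ⟨((u : ZMod (a * b)).val : ℕ), by rw [Int.cast_natCast, ZMod.natCast_zmod_val]⟩
    rw [← hj, ZMod.cast_intCast hdb, ← Int.cast_one, ZMod.intCast_eq_intCast_iff_dvd_sub] at hu
    have hb1 : (j : ZMod b) = 1 := by
      rw [← Int.cast_one, ZMod.intCast_eq_intCast_iff_dvd_sub]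
      exact dvd_trans (by exact_mod_cast dvd_mul_left b d) hu
    have hd1 : (j : ZMod d) = 1 := by
      rw [← Int.cast_one, ZMod.intCast_eq_intCast_iff_dvd_sub]
      exact dvd_trans (by exact_mod_cast dvd_mul_right d b) hu
    have hau : IsUnit (j : ZMod a) := by
      have h' := u.isUnit.map (ZMod.castHom (dvd_mul_right a b) (ZMod a))
      rwa [ZMod.castHom_apply, ← hj, ZMod.cast_intCast (dvd_mul_right a b)] at h'
    have hmem : hau.unit ∈ (ZMod.unitsMap hda).ker := by
      rw [MonoidHom.mem_ker, Units.ext_iff, ZMod.unitsMap_val, IsUnit.unit_spec, ZMod.cast_intCast hda, hd1,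
        Units.val_one]
    have h1 := hker hmem
    rw [MonoidHom.mem_ker, Units.ext_iff, MulChar.coe_toUnitHom, IsUnit.unit_spec, Units.val_one] at h1
    rw [MonoidHom.mem_ker, Units.ext_iff, MulChar.coe_toUnitHom, Units.val_one, ← hj, apply_intCast_eq_mul h, h1,
      hb1, map_one, one_mul]
  have hle := conductor_dvd_of_mem_conductorSet χ hf
  rw [(isPrimitive_def χ).mp hp] at hle
  exact (isPrimitive_def _).mpr (Nat.dvd_antisymm hda (Nat.dvd_of_mul_dvd_mul_right (NeZero.pos b) hle))

/-- The components of a primitive character are primitive. -/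
theorem sndPart_isPrimitive (hp : χ.IsPrimitive) : (sndPart h χ).IsPrimitive := by
  have : NeZero (a * b) := ⟨Nat.mul_ne_zero (NeZero.ne a) (NeZero.ne b)⟩
  set d := (sndPart h χ).conductor with hd
  have hdb : d ∣ b := conductor_dvd_level _
  have hker := (factorsThrough_iff_ker_unitsMap hdb).mp ((sndPart h χ).factorsThrough_conductor)
  have hdd : a * d ∣ a * b := Nat.mul_dvd_mul_left a hdb
  have hf : χ.FactorsThrough (a * d) := by
    rw [factorsThrough_iff_ker_unitsMap hdd]
    intro u hu
    rw [MonoidHom.mem_ker, Units.ext_iff, ZMod.unitsMap_val, Units.val_one] at hu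
    obtain ⟨j, hj⟩ : ∃ j : ℤ, (j : ZMod (a * b)) = (u : ZMod (a * b)) :=
      ⟨((u : ZMod (a * b)).val : ℕ), by rw [Int.cast_natCast, ZMod.natCast_zmod_val]⟩
    rw [← hj, ZMod.cast_intCast hdd, ← Int.cast_one, ZMod.intCast_eq_intCast_iff_dvd_sub] at hu
    have ha1 : (j : ZMod a) = 1 := by
      rw [← Int.cast_one, ZMod.intCast_eq_intCast_iff_dvd_sub]
      exact dvd_trans (by exact_mod_cast dvd_mul_right a d) hu
    have hd1 : (j : ZMod d) = 1 := by
      rw [← Int.cast_one, ZMod.intCast_eq_intCast_iff_dvd_sub]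
      exact dvd_trans (by exact_mod_cast dvd_mul_left d a) hu
    have hbu : IsUnit (j : ZMod b) := by
      have h' := u.isUnit.map (ZMod.castHom (dvd_mul_left b a) (ZMod b))
      rwa [ZMod.castHom_apply, ← hj, ZMod.cast_intCast (dvd_mul_left b a)] at h'
    have hmem : hbu.unit ∈ (ZMod.unitsMap hdb).ker := by
      rw [MonoidHom.mem_ker, Units.ext_iff, ZMod.unitsMap_val, IsUnit.unit_spec, ZMod.cast_intCast hdb, hd1,
        Units.val_one]
    have h1 := hker hmem
    rw [MonoidHom.mem_ker, Units.ext_iff, MulChar.coe_toUnitHom, IsUnit.unit_spec, Units.val_one] at h1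
    rw [MonoidHom.mem_ker, Units.ext_iff, MulChar.coe_toUnitHom, Units.val_one, ← hj, apply_intCast_eq_mul h, h1,
      ha1, map_one, one_mul]
  have hle := conductor_dvd_of_mem_conductorSet χ hf
  rw [(isPrimitive_def χ).mp hp] at hle
  exact (isPrimitive_def _).mpr (Nat.dvd_antisymm hdb (Nat.dvd_of_mul_dvd_mul_left (NeZero.pos a) hle))

/-- **The Gauss sum of a product.** -/
theorem gaussSum_split :
    gaussSum χ ZMod.stdAddChar = fstPart h χ (b : ZMod a) * sndPart h χ (a : ZMod b) *
      (gaussSum (fstPart h χ) ZMod.stdAddChar * gaussSum (sndPart h χ) ZMod.stdAddChar) := by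
  have : NeZero (a * b) := ⟨Nat.mul_ne_zero (NeZero.ne a) (NeZero.ne b)⟩
  set φ : ZMod a × ZMod b → ZMod (a * b) := fun v => ((b * v.1.val + a * v.2.val : ℕ) : ZMod (a * b)) with hφdef
  have hcrt : ∀ v, ZMod.chineseRemainder h (φ v) = ((b : ZMod a) * v.1, (a : ZMod b) * v.2) := fun v => by
    simp only [hφdef]
    rw [map_natCast]
    refine Prod.ext ?_ ?_
    · rw [Prod.fst_natCast, Nat.cast_add, Nat.cast_mul, Nat.cast_mul, ZMod.natCast_self, zero_mul, add_zero,
        ZMod.natCast_zmod_val]
    · rw [Prod.snd_natCast, Nat.cast_add, Nat.cast_mul, Nat.cast_mul, ZMod.natCast_self, zero_mul, zero_add,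
        ZMod.natCast_zmod_val]
  have hbu : IsUnit (b : ZMod a) := (ZMod.isUnit_iff_coprime b a).mpr h.symm
  have hau : IsUnit (a : ZMod b) := (ZMod.isUnit_iff_coprime a b).mpr h
  have hφ : Function.Bijective φ := by
    rw [Fintype.bijective_iff_injective_and_card]
    refine ⟨fun v w e => ?_, by simp [ZMod.card]⟩
    have e' := congrArg (ZMod.chineseRemainder h) e
    rw [hcrt, hcrt] at e'
    exact Prod.ext (hbu.mul_left_cancel (congrArg Prod.fst e')) (hau.mul_left_cancel (congrArg Prod.snd e'))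
  rw [gaussSum, gaussSum, gaussSum, ← hφ.sum_comp (fun z => χ z * ZMod.stdAddChar z), Finset.sum_mul_sum,
    Finset.mul_sum, Fintype.sum_prod_type]
  refine Finset.sum_congr rfl fun x _ => ?_
  rw [Finset.mul_sum]
  refine Finset.sum_congr rfl fun y _ => ?_
  have he : ZMod.stdAddChar (φ (x, y)) = ZMod.stdAddChar x * ZMod.stdAddChar y := by
    conv_rhs => rw [← ZMod.natCast_zmod_val x, ← ZMod.natCast_zmod_val y]
    rw [← Int.cast_natCast (R := ZMod a), ← Int.cast_natCast (R := ZMod b), ZMod.stdAddChar_coe, ZMod.stdAddChar_coe,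
      hφdef]
    dsimp only
    rw [← Int.cast_natCast (R := ZMod (a * b)), ZMod.stdAddChar_coe, ← Complex.exp_add]
    congr 1
    have ha : (a : ℂ) ≠ 0 := Nat.cast_ne_zero.mpr (NeZero.ne a)
    have hb : (b : ℂ) ≠ 0 := Nat.cast_ne_zero.mpr (NeZero.ne b)
    push_cast
    field_simp
  rw [he, apply_eq_mul h χ, hcrt]
  simp only [map_mul]
  ring

end FA.AbelianFE
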