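import Fermat.Agent.AbelianFE.CompletedProduct
import Fermat.Agent.Root.SummaryCyclotomicUnits

/-!
# `L(0, χ) = -B_{1,χ}` for odd primitive characters

From the closed form of `L(1, χ⁻¹)` and the functional equation.
-/

set_option autoImplicit false
set_option linter.style.haveILetI false

noncomputable section

open DirichletCharacter Complex
open scoped Real

namespace FA.AbelianFE

/-- The first generalised Bernoulli number of a nontrivial character: `(1/N) ∑ a χ(a)`. -/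
def bernoulliOne {N : ℕ} [NeZero N] (χ : DirichletCharacter ℂ N) : ℂ :=
  (∑ a : ZMod N, χ a * (a.val : ℂ)) / N

variable {N : ℕ} [NeZero N]

/-- An odd character is not trivial, so its level exceeds one. -/
theorem one_lt_of_odd {χ : DirichletCharacter ℂ N} (hχ : χ.Odd) : 1 < N := by
  rcases Nat.lt_or_ge 1 N with h | h
  · exact h
  exfalso
  obtain rfl : N = 1 := le_antisymm h NeZero.one_le
  have h' : χ (-1) = -1 := hχ
  rw [show (-1 : ZMod 1) = 1 from Subsingleton.elim _ _, map_one] at h'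
  norm_num at h'

omit [NeZero N] in
/-- The inverse of an odd character is odd. -/
theorem odd_inv {χ : DirichletCharacter ℂ N} (hχ : χ.Odd) : χ⁻¹.Odd := by
  show χ⁻¹ (-1) = -1
  have h : χ⁻¹ (-1) * χ (-1) = 1 := by
    rw [← MulChar.mul_apply, inv_mul_cancel, MulChar.one_apply isUnit_one.neg]
  rw [show χ (-1) = -1 from hχ] at h
  linear_combination -h

/-- The sum of logarithms. -/
theorem sum_mul_log_of_odd {ψ : DirichletCharacter ℂ N} (hψ : ψ.Odd) :
    ∑ a : ZMod N, ψ a * Complex.log (1 - ZMod.stdAddChar (-a)) =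
      -((π : ℂ) * I / N) * ∑ a : ZMod N, ψ a * (a.val : ℂ) := by
  have hN := one_lt_of_odd hψ
  haveI : Fact (1 < N) := ⟨hN⟩
  have hNr : (N : ℝ) ≠ 0 := Nat.cast_ne_zero.mpr (NeZero.ne N)
  have hne : ψ ≠ 1 := fun e => by
    have h' : ψ (-1) = -1 := hψ
    rw [e, MulChar.one_apply isUnit_one.neg] at h'
    norm_num at h'
  have hval : ∀ a : ZMod N, a ≠ 0 → (((-a).val : ℝ) / N) = 1 - (a.val : ℝ) / N := fun a ha => by
    rw [ZMod.neg_val, if_neg ha, Nat.cast_sub (ZMod.val_lt a).le, sub_div, div_self hNr]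
  set g : ZMod N → ℝ := fun a => Real.log (2 * Real.sin (π * ((a.val : ℝ) / N))) with hg_def
  have hterm : ∀ a : ZMod N, ψ a * Complex.log (1 - ZMod.stdAddChar (-a)) =
      ψ a * (g a : ℂ) + -((π : ℂ) * I) * ((N : ℂ)⁻¹ * (ψ a * (a.val : ℂ)) - 1 / 2 * ψ a) := fun a => by
    by_cases ha : a = 0
    · rw [ha, MulChar.map_zero]; ring
    rw [← FA.OrderTheta.circlePoint_val,
      FA.OrderTheta.log_one_sub_circlePoint (FA.OrderTheta.val_div_mem_Ioo (neg_ne_zero.mpr ha)), hval a ha,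
      mul_sub π 1, mul_one, Real.sin_pi_sub]
    simp only [hg_def]
    push_cast
    ring
  have hg : ∑ a : ZMod N, ψ a * (g a : ℂ) = 0 := by
    refine Function.Odd.sum_eq_zero fun a => ?_
    by_cases ha : a = 0
    · rw [ha, neg_zero, MulChar.map_zero]; ring
    have hga : g (-a) = g a := by
      simp only [hg_def]
      rw [hval a ha, mul_sub π 1, mul_one, Real.sin_pi_sub]
    rw [hψ.eval_neg, hga]
    ring
  rw [Finset.sum_congr rfl fun a _ => hterm a, Finset.sum_add_distrib, hg, zero_add, ← Finset.mul_sum,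
    Finset.sum_sub_distrib, ← Finset.mul_sum, ← Finset.mul_sum, MulChar.sum_eq_zero_of_ne_one hne]
  ring

/-- `N^(1/2)` squared. -/
theorem cpow_half_mul_self (N : ℕ) [NeZero N] : (N : ℂ) ^ (1 / 2 : ℂ) * (N : ℂ) ^ (1 / 2 : ℂ) = N := by
  rw [← cpow_add _ _ (NeZero.ne (N : ℂ))]
  norm_num

/-- The product of the two Gauss sums. -/
theorem gaussSum_mul_inv_of_odd {χ : DirichletCharacter ℂ N} (hprim : χ.IsPrimitive) (hχ : χ.Odd) :
    gaussSum χ ZMod.stdAddChar * gaussSum χ⁻¹ ZMod.stdAddChar = -(N : ℂ) := by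
  have hinv : χ⁻¹.Odd := odd_inv hχ
  have h := rootNumber_mul_inv hprim
  rw [rootNumber, rootNumber, if_neg hχ.not_even, if_neg hinv.not_even, pow_one] at h
  have hs : (N : ℂ) ^ (1 / 2 : ℂ) ≠ 0 := by simp [NeZero.ne N]
  field_simp at h
  rw [h]
  linear_combination ((N : ℂ) ^ (1 / 2 : ℂ) * (N : ℂ) ^ (1 / 2 : ℂ)) * I_sq - cpow_half_mul_self N

/-- **The value at `0`.** -/
theorem LFunction_zero_of_odd {χ : DirichletCharacter ℂ N} (hprim : χ.IsPrimitive) (hχ : χ.Odd) :
    LFunction χ 0 = -bernoulliOne χ := by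
  have hN := one_lt_of_odd hχ
  have hinv : χ⁻¹.Odd := odd_inv hχ
  have hprim' : χ⁻¹.IsPrimitive := by
    rw [isPrimitive_def, conductor_inv]
    exact (isPrimitive_def χ).mp hprim
  have hFE := hprim.completedLFunction_one_sub 1
  rw [sub_self, show (1 : ℂ) - 1 / 2 = 1 / 2 by norm_num] at hFE
  have h0 := LFunction_eq_completed_div_gammaFactor χ 0 (Or.inr hN.ne')
  rw [hχ.gammaFactor_def, zero_add, Gammaℝ_one, div_one] at h0
  have h1 := LFunction_eq_completed_div_gammaFactor χ⁻¹ 1 (Or.inl one_ne_zero)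
  have hG2 : Gammaℝ (1 + 1) = 1 / (π : ℂ) := by
    have := Gammaℝ_mul_Gammaℝ_add_one 1
    rwa [Gammaℝ_one, one_mul, Gammaℂ_one] at this
  rw [hinv.gammaFactor_def, hG2, eq_div_iff (by simp)] at h1
  rw [h0, hFE, ← h1, FA.Summary.lFunction_one_closedForm hN hprim', inv_inv, sum_mul_log_of_odd hχ, rootNumber,
    if_neg hχ.not_even, pow_one, bernoulliOne]
  have hτ := gaussSum_mul_inv_of_odd hprim hχ
  have hs : (N : ℂ) ^ (1 / 2 : ℂ) ≠ 0 := by simp [NeZero.ne N]
  have hN0 : (N : ℂ) ≠ 0 := NeZero.ne _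
  have hpi : (π : ℂ) ≠ 0 := ofReal_ne_zero.mpr Real.pi_ne_zero
  field_simp
  linear_combination (∑ a : ZMod N, χ a * (a.val : ℂ)) * hτ

end FA.AbelianFE
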